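/-
S25lib / Mod / Basic  (helper7)  --  Project L (S25), brick (M1): `Scheme.Modules` through sections.
* `pullSec f M V : Γ(M, V) → Γ(f^*M, f⁻¹V)`: the unit of the pullback-pushforward adjunction on sections;
  it is `f^♯`-semilinear, and on the unit module it is `f^♯` (through `pullbackUnitIso`).
* `res`, `IsGen M U s`: `s` generates `M` over `U` (every `Γ(M, V)`, `V ≤ U`, is free of rank one on `s|_V`).
-/
import Mathlib
import Fermat.Prelude.Def_AlgebraicGeometry_RelativePicardFunctor

set_option autoImplicit false

noncomputable section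

universe u

open AlgebraicGeometry CategoryTheory TopologicalSpace

namespace Fermat.Agent.S25lib.Mod

section Pull

variable {X Y : Scheme.{u}} (f : Y ⟶ X)

/-- the unit of the pullback-pushforward adjunction, with its honest type -/
def pullUnit (M : X.Modules) :
    M ⟶ (Scheme.Modules.pushforward f).obj ((Scheme.Modules.pullback f).obj M) :=
  (Scheme.Modules.pullbackPushforwardAdjunction f).unit.app M

theorem pullUnit_smul (M : X.Modules) (V : X.Opens) (r : Γ(X, V)) (s : Γ(M, V)) :
    (pullUnit f M).app V (r • s) = r • (pullUnit f M).app V s :=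
  Scheme.Modules.Hom.app_smul _ _ _

/-- sections of a pushforward, as sections upstairs -/
def ofPush (N : Y.Modules) (V : X.Opens) (s : Γ((Scheme.Modules.pushforward f).obj N, V)) :
    Γ(N, f ⁻¹ᵁ V) := s

theorem ofPush_smul (N : Y.Modules) (V : X.Opens) (r : Γ(X, V))
    (s : Γ((Scheme.Modules.pushforward f).obj N, V)) :
    ofPush f N V (r • s) = (f.app V r) • ofPush f N V s := rfl

theorem ofPush_add (N : Y.Modules) (V : X.Opens)
    (s s' : Γ((Scheme.Modules.pushforward f).obj N, V)) :
    ofPush f N V (s + s') = ofPush f N V s + ofPush f N V s' := rfl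

/-- pullback of sections -/
def pullSec (M : X.Modules) (V : X.Opens) (s : Γ(M, V)) :
    Γ((Scheme.Modules.pullback f).obj M, f ⁻¹ᵁ V) :=
  ofPush f _ V ((pullUnit f M).app V s)

theorem pullSec_smul (M : X.Modules) (V : X.Opens) (r : Γ(X, V)) (s : Γ(M, V)) :
    pullSec f M V (r • s) = (f.app V r) • pullSec f M V s := by
  unfold pullSec
  rw [pullUnit_smul, ofPush_smul]

theorem pullSec_add (M : X.Modules) (V : X.Opens) (s s' : Γ(M, V)) :
    pullSec f M V (s + s') = pullSec f M V s + pullSec f M V s' := by
  unfold pullSec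
  rw [map_add, ofPush_add]

/-- `pullSec` commutes with restriction -/
theorem pullSec_res (M : X.Modules) {U V : X.Opens} (h : V ≤ U) (s : Γ(M, U)) :
    pullSec f M V (M.presheaf.map (homOfLE h).op s) =
      ((Scheme.Modules.pullback f).obj M).presheaf.map
        (homOfLE (show f ⁻¹ᵁ V ≤ f ⁻¹ᵁ U from fun _ hx => h hx)).op (pullSec f M U s) := by
  have := (pullUnit f M).mapPresheaf.naturality (homOfLE h).op
  exact congr($this s)

/-- the unit module, as an object of `X.Modules` -/
abbrev unitM (X : Scheme.{u}) : X.Modules := SheafOfModules.unit X.ringCatSheaf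

/-- sections of the structure sheaf as sections of the unit module -/
def toUnit (V : X.Opens) (r : Γ(X, V)) : Γ(unitM X, V) := r

/-- sections of the unit module as sections of the structure sheaf -/
def ofUnit (V : X.Opens) (r : Γ(unitM X, V)) : Γ(X, V) := r

theorem pullbackUnitIso_pullSec (V : X.Opens) (r : Γ(X, V)) :
    (Scheme.Modules.pullbackUnitIso f).hom.app (f ⁻¹ᵁ V)
      (pullSec f (unitM X) V (toUnit V r)) =
    toUnit (f ⁻¹ᵁ V) (f.app V r) := by
  have : (SheafOfModules.pushforward.{u} f.toRingCatSheafHom).IsRightAdjoint :=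
    inferInstanceAs (Scheme.Modules.pushforward f).IsRightAdjoint
  have h := SheafOfModules.pullbackPushforwardAdjunction_homEquiv_pullbackObjUnitToUnit.{u}
    f.toRingCatSheafHom
  rw [Adjunction.homEquiv_unit] at h
  exact congrArg (fun g => g.val.app (Opposite.op V) r) h

/-- naturality of `pullSec` in the module -/
theorem pullSec_map {M N : X.Modules} (φ : M ⟶ N) (V : X.Opens) (s : Γ(M, V)) :
    pullSec f N V (φ.app V s) =
      ((Scheme.Modules.pullback f).map φ).app (f ⁻¹ᵁ V) (pullSec f M V s) := by
  have := (Scheme.Modules.pullbackPushforwardAdjunction f).unit.naturality φ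
  have h2 := congrArg (fun g => (Scheme.Modules.Hom.app g V) s) this
  exact h2

end Pull

end Fermat.Agent.S25lib.Mod
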