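/-
S25lib / Mod / Gen  (helper7)  --  Project L (S25), brick (M1): generating sections.
`IsGen M U s`: the section `s ∈ Γ(M, U)` generates `M` over `U`, i.e. for every open `V ≤ U` the map
`Γ(X, V) → Γ(M, V)`, `r ↦ r • s|_V` is bijective.
-/
import Fermat.Agent.S25lib.Mod.Basic

set_option autoImplicit false

noncomputable section

universe u

open AlgebraicGeometry CategoryTheory TopologicalSpace

namespace Fermat.Agent.S25lib.Mod

variable {X : Scheme.{u}}

/-- restriction of sections of a module -/
def res (M : X.Modules) {U V : X.Opens} (h : V ≤ U) (s : Γ(M, U)) : Γ(M, V) :=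
  M.presheaf.map (homOfLE h).op s

/-- restriction of sections of the structure sheaf -/
def resO {U V : X.Opens} (h : V ≤ U) (r : Γ(X, U)) : Γ(X, V) :=
  X.presheaf.map (homOfLE h).op r

theorem res_self (M : X.Modules) {U : X.Opens} (s : Γ(M, U)) : res M (le_refl U) s = s := by
  unfold res
  have : (homOfLE (le_refl U)).op = 𝟙 (Opposite.op U) := rfl
  rw [this, M.presheaf.map_id]
  rfl

theorem res_res (M : X.Modules) {U V W : X.Opens} (h : V ≤ U) (h' : W ≤ V) (s : Γ(M, U)) :
    res M h' (res M h s) = res M (h'.trans h) s := by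
  unfold res
  have : (homOfLE (h'.trans h)).op = (homOfLE h).op ≫ (homOfLE h').op := rfl
  rw [this, M.presheaf.map_comp]
  rfl

theorem res_smul (M : X.Modules) {U V : X.Opens} (h : V ≤ U) (r : Γ(X, U)) (s : Γ(M, U)) :
    res M h (r • s) = resO h r • res M h s :=
  Scheme.Modules.map_smul M (homOfLE h) r s

theorem res_add (M : X.Modules) {U V : X.Opens} (h : V ≤ U) (s s' : Γ(M, U)) :
    res M h (s + s') = res M h s + res M h s' :=
  map_add _ _ _

theorem res_zero (M : X.Modules) {U V : X.Opens} (h : V ≤ U) :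
    res M h (0 : Γ(M, U)) = 0 :=
  map_zero _

theorem resO_self {U : X.Opens} (r : Γ(X, U)) : resO (le_refl U) r = r := by
  unfold resO
  have : (homOfLE (le_refl U)).op = 𝟙 (Opposite.op U) := rfl
  rw [this, X.presheaf.map_id]
  rfl

theorem resO_resO {U V W : X.Opens} (h : V ≤ U) (h' : W ≤ V) (r : Γ(X, U)) :
    resO h' (resO h r) = resO (h'.trans h) r := by
  unfold resO
  have : (homOfLE (h'.trans h)).op = (homOfLE h).op ≫ (homOfLE h').op := rfl
  rw [this, X.presheaf.map_comp]
  rfl

theorem resO_mul {U V : X.Opens} (h : V ≤ U) (r r' : Γ(X, U)) :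
    resO h (r * r') = resO h r * resO h r' := map_mul _ _ _

theorem resO_one {U V : X.Opens} (h : V ≤ U) : resO h (1 : Γ(X, U)) = 1 := map_one _

theorem resO_add {U V : X.Opens} (h : V ≤ U) (r r' : Γ(X, U)) :
    resO h (r + r') = resO h r + resO h r' := map_add _ _ _

/-- naturality of a morphism of modules with respect to restriction -/
theorem app_res {M N : X.Modules} (φ : M ⟶ N) {U V : X.Opens} (h : V ≤ U) (s : Γ(M, U)) :
    φ.app V (res M h s) = res N h (φ.app U s) := by
  have := φ.mapPresheaf.naturality (homOfLE h).op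
  exact congr($this s)

/-- `s` generates `M` over `U` -/
def IsGen (M : X.Modules) (U : X.Opens) (s : Γ(M, U)) : Prop :=
  ∀ (V : X.Opens) (h : V ≤ U), Function.Bijective (fun r : Γ(X, V) => r • res M h s)

theorem IsGen.res {M : X.Modules} {U : X.Opens} {s : Γ(M, U)} (hs : IsGen M U s)
    {V : X.Opens} (h : V ≤ U) : IsGen M V (res M h s) := by
  intro W hW
  have := hs W (hW.trans h)
  simpa only [res_res] using this

/-- the coordinate of a section with respect to a generator -/
def IsGen.coord {M : X.Modules} {U : X.Opens} {s : Γ(M, U)} (hs : IsGen M U s)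
    {V : X.Opens} (h : V ≤ U) (t : Γ(M, V)) : Γ(X, V) :=
  ((hs V h).2 t).choose

theorem IsGen.coord_smul {M : X.Modules} {U : X.Opens} {s : Γ(M, U)} (hs : IsGen M U s)
    {V : X.Opens} (h : V ≤ U) (t : Γ(M, V)) : hs.coord h t • Mod.res M h s = t :=
  ((hs V h).2 t).choose_spec

theorem IsGen.coord_unique {M : X.Modules} {U : X.Opens} {s : Γ(M, U)} (hs : IsGen M U s)
    {V : X.Opens} (h : V ≤ U) {t : Γ(M, V)} {r : Γ(X, V)} (hr : r • Mod.res M h s = t) :
    hs.coord h t = r :=
  (hs V h).1 ((hs.coord_smul h t).trans hr.symm)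

/-- a morphism of modules which maps a generator to a generator is an isomorphism over `U`:
bijectivity on sections -/
theorem IsGen.bijective_app {M N : X.Modules} (φ : M ⟶ N) {U : X.Opens} {s : Γ(M, U)}
    (hs : IsGen M U s) (ht : IsGen N U (φ.app U s)) {V : X.Opens} (h : V ≤ U) :
    Function.Bijective (φ.app V) := by
  have key : ∀ r : Γ(X, V), φ.app V (r • Mod.res M h s) = r • Mod.res N h (φ.app U s) := by
    intro r
    rw [Scheme.Modules.Hom.app_smul, app_res]
  constructor
  · intro a b hab
    rw [← hs.coord_smul h a, ← hs.coord_smul h b] at hab ⊢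
    rw [key, key] at hab
    rw [(ht V h).1 hab]
  · intro t
    refine ⟨ht.coord h t • Mod.res M h s, ?_⟩
    rw [key, ht.coord_smul]

end Fermat.Agent.S25lib.Mod
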