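/-
S25lib / Mod / Triv  (helper7)  --  Project L (S25), brick (M1): trivialisations and generators.
* `isGen_top_of_iso`: an isomorphism `N ≅ unit` gives a generator of `N` over `⊤`.
* `exists_isGen_of_restrict_iso`: `M.restrict U.ι ≅ unit` gives a generator of `M` over `U`.
* `exists_isGen_of_isInvertible`: Prelude's `IsInvertible` gives local generators.
-/
import Fermat.Agent.S25lib.Mod.Gen

set_option autoImplicit false

noncomputable section

universe u

open AlgebraicGeometry CategoryTheory TopologicalSpace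

namespace Fermat.Agent.S25lib.Mod

variable {X : Scheme.{u}}

/-- the section `1` of the unit module -/
def oneU (V : X.Opens) : Γ(unitM X, V) := toUnit V 1

theorem smul_oneU (V : X.Opens) (r : Γ(X, V)) : r • oneU V = toUnit V r := by
  change toUnit V (r * 1) = toUnit V r
  rw [mul_one]

theorem res_toUnit {U V : X.Opens} (h : V ≤ U) (r : Γ(X, U)) :
    res (unitM X) h (toUnit U r) = toUnit V (resO h r) := rfl

theorem res_oneU {U V : X.Opens} (h : V ≤ U) :
    res (unitM X) h (oneU U) = oneU V := by
  unfold oneU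
  rw [res_toUnit, resO_one]

theorem isGen_oneU (U : X.Opens) : IsGen (unitM X) U (oneU U) := by
  intro V h
  rw [res_oneU]
  constructor
  · intro a b hab
    simp only [smul_oneU] at hab
    exact hab
  · intro t
    exact ⟨ofUnit V t, smul_oneU V _⟩

/-- the image of a generator under an isomorphism is a generator -/
theorem IsGen.map_iso {M N : X.Modules} (e : M ≅ N) {U : X.Opens} {s : Γ(M, U)}
    (hs : IsGen M U s) : IsGen N U (e.hom.app U s) := by
  intro V h
  have hbij : Function.Bijective (e.hom.app V) := by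
    have : IsIso (e.hom.app V) := inferInstance
    exact ConcreteCategory.bijective_of_isIso (e.hom.app V)
  have key : (fun r : Γ(X, V) => r • Mod.res N h (e.hom.app U s)) =
      (e.hom.app V) ∘ (fun r : Γ(X, V) => r • Mod.res M h s) := by
    funext r
    simp only [Function.comp]
    rw [Scheme.Modules.Hom.app_smul, app_res]
  rw [key]
  exact hbij.comp (hs V h)

theorem isGen_top_of_iso {N : X.Modules} (e : N ≅ unitM X) :
    IsGen N ⊤ (e.inv.app ⊤ (oneU ⊤)) :=
  (isGen_oneU ⊤).map_iso e.symm

end Fermat.Agent.S25lib.Mod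

namespace Fermat.Agent.S25lib.Mod

variable {X : Scheme.{u}}

theorem exists_opens_image_eq {U V : X.Opens} (h : V ≤ U) :
    ∃ W : U.toScheme.Opens, V = U.ι ''ᵁ W := by
  refine ⟨U.ι ⁻¹ᵁ V, ?_⟩
  rw [Scheme.Hom.image_preimage_eq_opensRange_inf, Scheme.Opens.opensRange_ι]
  exact (inf_eq_right.mpr h).symm

/-- a section over `⊤` of the restriction `M|_U`, as a section of `M` over `U` -/
def ofRestrictTop (M : X.Modules) (U : X.Opens) (σ : Γ(M.restrict U.ι, ⊤)) : Γ(M, U) :=
  M.presheaf.map (eqToHom (U.ι_image_top).symm).op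
    ((M.restrictAppIso U.ι ⊤).hom σ)

theorem isGen_ofRestrictTop (M : X.Modules) (U : X.Opens) (σ : Γ(M.restrict U.ι, ⊤))
    (hσ : IsGen (M.restrict U.ι) ⊤ σ) : IsGen M U (ofRestrictTop M U σ) := by
  intro V h
  obtain ⟨W, rfl⟩ := exists_opens_image_eq h
  have hW := hσ W le_top
  -- the restriction of `ofRestrictTop` to `U.ι ''ᵁ W` is the restriction of `σ` to `W`
  have hres : Mod.res M h (ofRestrictTop M U σ) =
      (M.restrictAppIso U.ι W).hom (Mod.res (M.restrict U.ι) (le_top : W ≤ ⊤) σ) := by
    unfold Mod.res ofRestrictTop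
    have := Scheme.Modules.map_restrictAppIso_hom_apply U.ι M (homOfLE (le_top : W ≤ ⊤)).op σ
    rw [this]
    rw [← ConcreteCategory.comp_apply, ← Functor.map_comp]
    rfl
  rw [hres]
  have key : (fun r : Γ(X, U.ι ''ᵁ W) => r • (M.restrictAppIso U.ι W).hom
      (Mod.res (M.restrict U.ι) (le_top : W ≤ ⊤) σ)) =
      (fun x => (M.restrictAppIso U.ι W).hom x) ∘
        (fun r' : Γ(U, W) => r' • Mod.res (M.restrict U.ι) (le_top : W ≤ ⊤) σ) ∘
        (fun r : Γ(X, U.ι ''ᵁ W) => (U.ι.appIso W).hom r) := by
    funext r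
    simp only [Function.comp]
    have := Scheme.Modules.smul_restrictAppIso_hom_apply U.ι M W ((U.ι.appIso W).hom r)
      (Mod.res (M.restrict U.ι) (le_top : W ≤ ⊤) σ)
    rw [this]
    congr 1
    exact (congr($((U.ι.appIso W).hom_inv_id) r)).symm
  rw [key]
  refine Function.Bijective.comp ?_ (Function.Bijective.comp hW ?_)
  · exact ConcreteCategory.bijective_of_isIso (M.restrictAppIso U.ι W).hom
  · exact ConcreteCategory.bijective_of_isIso (U.ι.appIso W).hom

/-- a trivialisation of `M|_U` (restriction form) gives a generator of `M` over `U` -/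
theorem exists_isGen_of_restrict_iso (M : X.Modules) (U : X.Opens)
    (e : M.restrict U.ι ≅ unitM U.toScheme) : ∃ s : Γ(M, U), IsGen M U s :=
  ⟨_, isGen_ofRestrictTop M U _ (isGen_top_of_iso e)⟩

/-- a trivialisation of `M|_U` (pullback form, as in the Prelude) gives a generator of `M` over `U` -/
theorem exists_isGen_of_pullback_iso (M : X.Modules) (U : X.Opens)
    (e : (Scheme.Modules.pullback U.ι).obj M ≅ SheafOfModules.unit U.toScheme.ringCatSheaf) :
    ∃ s : Γ(M, U), IsGen M U s :=
  exists_isGen_of_restrict_iso M U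
    ((Scheme.Modules.restrictFunctorIsoPullback U.ι).app M ≪≫ e)

/-- **(M1)(a), first half**: an invertible module has local generators -/
theorem exists_isGen_of_isInvertible {M : X.Modules} (hM : Scheme.Modules.IsInvertible M)
    (x : X) : ∃ U : X.Opens, x ∈ U ∧ ∃ s : Γ(M, U), IsGen M U s := by
  obtain ⟨U, hxU, ⟨e⟩⟩ := hM.exists_trivialization x
  exact ⟨U, hxU, exists_isGen_of_pullback_iso M U e⟩

end Fermat.Agent.S25lib.Mod
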