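/-
S25lib / Mod / GlueO  (helper7)  --  Project L (S25): the sheaf property of the structure sheaf in terms of
`resO`.
-/
import Fermat.Agent.S25lib.Mod.Gen

set_option autoImplicit false

noncomputable section

universe u

open AlgebraicGeometry CategoryTheory TopologicalSpace

namespace Fermat.Agent.S25lib.Mod

variable {X : Scheme.{u}}

/-- gluing of functions -/
theorem exists_unique_glueO {κ : Type*} (W : κ → X.Opens) (V : X.Opens)
    (hW : ∀ k, W k ≤ V) (hcov : V ≤ ⨆ k, W k) (y : ∀ k, Γ(X, W k))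
    (hy : ∀ k l, resO (inf_le_left : W k ⊓ W l ≤ W k) (y k) =
      resO (inf_le_right : W k ⊓ W l ≤ W l) (y l)) :
    ∃! t : Γ(X, V), ∀ k, resO (hW k) t = y k :=
  X.sheaf.existsUnique_gluing' W V (fun k => homOfLE (hW k)) hcov y hy

/-- functions which agree locally are equal -/
theorem eq_of_resO_eq {κ : Type*} (W : κ → X.Opens) (V : X.Opens)
    (hW : ∀ k, W k ≤ V) (hcov : V ≤ ⨆ k, W k) (t t' : Γ(X, V))
    (h : ∀ k, resO (hW k) t = resO (hW k) t') : t = t' :=
  X.sheaf.eq_of_locally_eq' W V (fun k => homOfLE (hW k)) hcov t t' h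

end Fermat.Agent.S25lib.Mod
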