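/-
S25lib / Mod / OfGen  (helper7)  --  Project L (S25), brick (M1): from generators to trivialisations.
* `homOfSection N σ : unitM X ⟶ N`, `r ↦ r • σ|_V`.
* `isoOfGen`: a generator over `⊤` gives `unitM X ≅ N`.
-/
import Fermat.Agent.S25lib.Mod.Triv

set_option autoImplicit false

noncomputable section

universe u

open AlgebraicGeometry CategoryTheory TopologicalSpace

namespace Fermat.Agent.S25lib.Mod

variable {X : Scheme.{u}}

/-- the compatible family of restrictions of a global section -/
def sectionsOfTop (N : X.Modules) (σ : Γ(N, ⊤)) : SheafOfModules.sections N :=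
  PresheafOfModules.sectionsMk (fun V => Mod.res N (le_top : V.unop ≤ ⊤) σ) (by
    intro V W f
    have h : W.unop ≤ V.unop := leOfHom f.unop
    exact res_res N (le_top : V.unop ≤ ⊤) h σ)

/-- the morphism `O_X ⟶ N` defined by a global section -/
def homOfSection (N : X.Modules) (σ : Γ(N, ⊤)) : unitM X ⟶ N :=
  (SheafOfModules.unitHomEquiv N).symm (sectionsOfTop N σ)

theorem homOfSection_app_one (N : X.Modules) (σ : Γ(N, ⊤)) (V : X.Opens) :
    (homOfSection N σ).app V (oneU V) = Mod.res N (le_top : V ≤ ⊤) σ := by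
  have := congrArg (fun t => t.val (Opposite.op V))
    ((SheafOfModules.unitHomEquiv N).apply_symm_apply (sectionsOfTop N σ))
  exact this

theorem homOfSection_app (N : X.Modules) (σ : Γ(N, ⊤)) (V : X.Opens) (r : Γ(X, V)) :
    (homOfSection N σ).app V (toUnit V r) = r • Mod.res N (le_top : V ≤ ⊤) σ := by
  rw [← smul_oneU, Scheme.Modules.Hom.app_smul, homOfSection_app_one]

theorem isIso_homOfSection (N : X.Modules) (σ : Γ(N, ⊤)) (hσ : IsGen N ⊤ σ) :
    IsIso (homOfSection N σ) := by
  rw [Scheme.Modules.Hom.isIso_iff_isIso_app]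
  intro V
  rw [ConcreteCategory.isIso_iff_bijective]
  have h1 := hσ V le_top
  have h2 : (fun r : Γ(X, V) => (homOfSection N σ).app V (toUnit V r)) =
      fun r : Γ(X, V) => r • Mod.res N (le_top : V ≤ ⊤) σ := by
    funext r
    exact homOfSection_app N σ V r
  rw [← h2] at h1
  exact h1

/-- a generator over `⊤` trivialises the module -/
def isoOfGen (N : X.Modules) (σ : Γ(N, ⊤)) (hσ : IsGen N ⊤ σ) : unitM X ≅ N :=
  haveI := isIso_homOfSection N σ hσ
  asIso (homOfSection N σ)

/-- a section of `M` over `U`, as a section over `⊤` of the restriction `M|_U` -/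
def toRestrictTop (M : X.Modules) (U : X.Opens) (s : Γ(M, U)) : Γ(M.restrict U.ι, ⊤) :=
  (M.restrictAppIso U.ι ⊤).inv (M.presheaf.map (eqToHom (U.ι_image_top)).op s)

theorem ofRestrictTop_toRestrictTop (M : X.Modules) (U : X.Opens) (s : Γ(M, U)) :
    ofRestrictTop M U (toRestrictTop M U s) = s := by
  change M.presheaf.map (eqToHom (U.ι_image_top).symm).op
    (M.presheaf.map (eqToHom (U.ι_image_top)).op s) = s
  rw [← ConcreteCategory.comp_apply, ← Functor.map_comp]
  have : (eqToHom (U.ι_image_top)).op ≫ (eqToHom (U.ι_image_top).symm).op = 𝟙 _ := rfl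
  rw [this, M.presheaf.map_id]
  rfl

theorem isGen_toRestrictTop (M : X.Modules) (U : X.Opens) (s : Γ(M, U)) (hs : IsGen M U s) :
    IsGen (M.restrict U.ι) ⊤ (toRestrictTop M U s) := by
  intro W hW
  have hV : U.ι ''ᵁ W ≤ U := by
    have := U.ι.image_le_opensRange W
    rwa [Scheme.Opens.opensRange_ι] at this
  have h1 := hs (U.ι ''ᵁ W) hV
  have hres : Mod.res M hV s =
      (M.restrictAppIso U.ι W).hom (Mod.res (M.restrict U.ι) hW (toRestrictTop M U s)) := by
    unfold Mod.res toRestrictTop
    have := Scheme.Modules.map_restrictAppIso_hom_apply U.ι M (homOfLE hW).op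
      ((M.restrictAppIso U.ι ⊤).inv (M.presheaf.map (eqToHom (U.ι_image_top)).op s))
    rw [this, ← ConcreteCategory.comp_apply (M.restrictAppIso U.ι ⊤).inv, Iso.inv_hom_id,
      ConcreteCategory.id_apply, ← ConcreteCategory.comp_apply, ← Functor.map_comp]
    rfl
  rw [hres] at h1
  have key : (fun r' : Γ(U, W) => r' • Mod.res (M.restrict U.ι) hW (toRestrictTop M U s)) =
      (fun x => (M.restrictAppIso U.ι W).inv x) ∘
        (fun r : Γ(X, U.ι ''ᵁ W) => r • (M.restrictAppIso U.ι W).hom
          (Mod.res (M.restrict U.ι) hW (toRestrictTop M U s))) ∘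
        (fun r' : Γ(U, W) => (U.ι.appIso W).inv r') := by
    funext r'
    simp only [Function.comp]
    have := Scheme.Modules.smul_restrictAppIso_hom_apply U.ι M W r'
      (Mod.res (M.restrict U.ι) hW (toRestrictTop M U s))
    rw [← this, ← ConcreteCategory.comp_apply, Iso.hom_inv_id, ConcreteCategory.id_apply]
  rw [key]
  refine Function.Bijective.comp ?_ (Function.Bijective.comp h1 ?_)
  · exact ConcreteCategory.bijective_of_isIso (M.restrictAppIso U.ι W).inv
  · exact ConcreteCategory.bijective_of_isIso (U.ι.appIso W).inv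

/-- a generator of `M` over `U` gives a trivialisation of `M|_U` (pullback form, as in the Prelude) -/
def pullbackIsoOfGen (M : X.Modules) (U : X.Opens) (s : Γ(M, U)) (hs : IsGen M U s) :
    (Scheme.Modules.pullback U.ι).obj M ≅ SheafOfModules.unit U.toScheme.ringCatSheaf :=
  ((Scheme.Modules.restrictFunctorIsoPullback U.ι).app M).symm ≪≫
    (isoOfGen (M.restrict U.ι) (toRestrictTop M U s) (isGen_toRestrictTop M U s hs)).symm

/-- **(M1)(a)**: a module is invertible (Prelude's sense) iff it has local generators -/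
theorem isInvertible_iff_exists_isGen (M : X.Modules) :
    Scheme.Modules.IsInvertible M ↔
      ∀ x : X, ∃ U : X.Opens, x ∈ U ∧ ∃ s : Γ(M, U), IsGen M U s := by
  constructor
  · exact fun hM x => exists_isGen_of_isInvertible hM x
  · intro h
    refine ⟨fun x => ?_⟩
    obtain ⟨U, hxU, s, hs⟩ := h x
    exact ⟨U, hxU, ⟨pullbackIsoOfGen M U s hs⟩⟩

end Fermat.Agent.S25lib.Mod
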