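/-
S25lib / Mod / SheafGlue  (helper7)  --  Project L (S25), brick (M1): the sheaf property of a module in
terms of `res`.
-/
import Fermat.Agent.S25lib.Mod.OfGen

set_option autoImplicit false

noncomputable section

universe u

open AlgebraicGeometry CategoryTheory TopologicalSpace

namespace Fermat.Agent.S25lib.Mod

variable {X : Scheme.{u}}

/-- the underlying sheaf of abelian groups of a module -/
def abSheaf (N : X.Modules) : TopCat.Sheaf Ab X := ⟨N.presheaf, N.isSheaf⟩

/-- gluing of sections of a module -/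
theorem exists_unique_glue (N : X.Modules) {ι : Type*} (W : ι → X.Opens) (V : X.Opens)
    (hW : ∀ i, W i ≤ V) (hcov : V ≤ ⨆ i, W i) (y : ∀ i, Γ(N, W i))
    (hy : ∀ i j, Mod.res N (inf_le_left : W i ⊓ W j ≤ W i) (y i) =
      Mod.res N (inf_le_right : W i ⊓ W j ≤ W j) (y j)) :
    ∃! t : Γ(N, V), ∀ i, Mod.res N (hW i) t = y i :=
  (abSheaf N).existsUnique_gluing' W V (fun i => homOfLE (hW i)) hcov y hy

/-- sections of a module which agree locally are equal -/
theorem eq_of_res_eq (N : X.Modules) {ι : Type*} (W : ι → X.Opens) (V : X.Opens)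
    (hW : ∀ i, W i ≤ V) (hcov : V ≤ ⨆ i, W i) (t t' : Γ(N, V))
    (h : ∀ i, Mod.res N (hW i) t = Mod.res N (hW i) t') : t = t' :=
  (abSheaf N).eq_of_locally_eq' W V (fun i => homOfLE (hW i)) hcov t t' h

/-- the cover `V ⊓ U i` of `V` induced by a cover `U` of `⊤` -/
theorem le_iSup_inf {ι : Type*} (U : ι → X.Opens) (hU : ⨆ i, U i = ⊤) (V : X.Opens) :
    V ≤ ⨆ i, V ⊓ U i := by
  rw [← inf_iSup_eq, hU, inf_top_eq]

end Fermat.Agent.S25lib.Mod
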