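/-
S25lib / Mod / LocMap  (helper7)  --  Project L (S25), brick (M1): the local map defined by a generator
and a target section.
-/
import Fermat.Agent.S25lib.Mod.SheafGlue

set_option autoImplicit false

noncomputable section

universe u

open AlgebraicGeometry CategoryTheory TopologicalSpace

namespace Fermat.Agent.S25lib.Mod

variable {X : Scheme.{u}}

section Coord

variable {M : X.Modules} {U : X.Opens} {s : Γ(M, U)} (hs : IsGen M U s)

theorem IsGen.coord_add {V : X.Opens} (h : V ≤ U) (m m' : Γ(M, V)) :
    hs.coord h (m + m') = hs.coord h m + hs.coord h m' := by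
  apply hs.coord_unique
  rw [add_smul, hs.coord_smul, hs.coord_smul]

theorem IsGen.coord_smul' {V : X.Opens} (h : V ≤ U) (r : Γ(X, V)) (m : Γ(M, V)) :
    hs.coord h (r • m) = r * hs.coord h m := by
  apply hs.coord_unique
  rw [mul_smul, hs.coord_smul]

theorem IsGen.coord_res {V V' : X.Opens} (h : V ≤ U) (h' : V' ≤ V) (m : Γ(M, V)) :
    hs.coord (h'.trans h) (Mod.res M h' m) = resO h' (hs.coord h m) := by
  apply hs.coord_unique
  have := congrArg (Mod.res M h') (hs.coord_smul h m)
  rw [res_smul, res_res] at this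
  exact this

theorem IsGen.coord_self_res {V : X.Opens} (h : V ≤ U) : hs.coord h (Mod.res M h s) = 1 := by
  apply hs.coord_unique
  rw [one_smul]

end Coord

section LocMap

variable {M N : X.Modules} {U : X.Opens} {s : Γ(M, U)} (hs : IsGen M U s) (t : Γ(N, U))

/-- the local map `M|_U → N|_U` with `s ↦ t` -/
def locMap {V : X.Opens} (h : V ≤ U) (m : Γ(M, V)) : Γ(N, V) :=
  hs.coord h m • Mod.res N h t

theorem locMap_add {V : X.Opens} (h : V ≤ U) (m m' : Γ(M, V)) :
    locMap hs t h (m + m') = locMap hs t h m + locMap hs t h m' := by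
  unfold locMap
  rw [hs.coord_add, add_smul]

theorem locMap_smul {V : X.Opens} (h : V ≤ U) (r : Γ(X, V)) (m : Γ(M, V)) :
    locMap hs t h (r • m) = r • locMap hs t h m := by
  unfold locMap
  rw [hs.coord_smul', mul_smul]

theorem locMap_res {V V' : X.Opens} (h : V ≤ U) (h' : V' ≤ V) (m : Γ(M, V)) :
    Mod.res N h' (locMap hs t h m) = locMap hs t (h'.trans h) (Mod.res M h' m) := by
  unfold locMap
  rw [res_smul, res_res, hs.coord_res]

theorem locMap_gen {V : X.Opens} (h : V ≤ U) :
    locMap hs t h (Mod.res M h s) = Mod.res N h t := by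
  unfold locMap
  rw [hs.coord_self_res, one_smul]

end LocMap

/-- two local maps agree on the overlap when the generators and the targets are related by the same
function -/
theorem locMap_eq_of_compat {M N : X.Modules} {U U' : X.Opens} {s : Γ(M, U)} {s' : Γ(M, U')}
    (hs : IsGen M U s) (hs' : IsGen M U' s') (t : Γ(N, U)) (t' : Γ(N, U'))
    (r : Γ(X, U ⊓ U'))
    (hr : Mod.res M (inf_le_left : U ⊓ U' ≤ U) s = r • Mod.res M (inf_le_right : U ⊓ U' ≤ U') s')
    (ht : Mod.res N (inf_le_left : U ⊓ U' ≤ U) t = r • Mod.res N (inf_le_right : U ⊓ U' ≤ U') t')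
    {V : X.Opens} (h : V ≤ U) (h' : V ≤ U') (m : Γ(M, V)) :
    locMap hs t h m = locMap hs' t' h' m := by
  have hV : V ≤ U ⊓ U' := le_inf h h'
  have hr' : Mod.res M h s = resO hV r • Mod.res M h' s' := by
    have := congrArg (Mod.res M hV) hr
    rwa [res_res, res_smul, res_res] at this
  have ht' : Mod.res N h t = resO hV r • Mod.res N h' t' := by
    have := congrArg (Mod.res N hV) ht
    rwa [res_res, res_smul, res_res] at this
  have hc : hs'.coord h' m = hs.coord h m * resO hV r := by
    apply hs'.coord_unique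
    rw [mul_smul, ← hr', hs.coord_smul]
  unfold locMap
  rw [hc, mul_smul, ← ht']

end Fermat.Agent.S25lib.Mod
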