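/-
S25lib / Mod / GlueHom  (helper7)  --  Project L (S25), brick (M1)(b): gluing of morphisms of modules.
Given generators `s i` of `M` on a cover `U i` and sections `t i` of `N` with the same transition
functions, there is a unique morphism `M ⟶ N` with `s i ↦ t i`.
-/
import Fermat.Agent.S25lib.Mod.LocMap

set_option autoImplicit false

noncomputable section

universe u

open AlgebraicGeometry CategoryTheory TopologicalSpace

namespace Fermat.Agent.S25lib.Mod

variable {X : Scheme.{u}}

/-- the data for gluing a morphism out of `M` -/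
structure GlueHomData (M N : X.Modules) (ι : Type u) where
  U : ι → X.Opens
  hU : ⨆ i, U i = ⊤
  s : ∀ i, Γ(M, U i)
  hs : ∀ i, IsGen M (U i) (s i)
  t : ∀ i, Γ(N, U i)
  r : ∀ i j, Γ(X, U i ⊓ U j)
  hr : ∀ i j, Mod.res M (inf_le_left : U i ⊓ U j ≤ U i) (s i) =
    r i j • Mod.res M (inf_le_right : U i ⊓ U j ≤ U j) (s j)
  ht : ∀ i j, Mod.res N (inf_le_left : U i ⊓ U j ≤ U i) (t i) =
    r i j • Mod.res N (inf_le_right : U i ⊓ U j ≤ U j) (t j)

namespace GlueHomData

variable {M N : X.Modules} {ι : Type u} (D : GlueHomData M N ι)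

/-- the local images of a section -/
def loc (V : X.Opens) (m : Γ(M, V)) (i : ι) : Γ(N, V ⊓ D.U i) :=
  locMap (D.hs i) (D.t i) (inf_le_right : V ⊓ D.U i ≤ D.U i)
    (Mod.res M (inf_le_left : V ⊓ D.U i ≤ V) m)

theorem loc_compat (V : X.Opens) (m : Γ(M, V)) (i j : ι) :
    Mod.res N (inf_le_left : (V ⊓ D.U i) ⊓ (V ⊓ D.U j) ≤ V ⊓ D.U i) (D.loc V m i) =
      Mod.res N (inf_le_right : (V ⊓ D.U i) ⊓ (V ⊓ D.U j) ≤ V ⊓ D.U j) (D.loc V m j) := by
  unfold loc
  rw [locMap_res, locMap_res, res_res, res_res]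
  exact locMap_eq_of_compat (D.hs i) (D.hs j) (D.t i) (D.t j) (D.r i j) (D.hr i j) (D.ht i j) _ _ _

/-- the glued map on sections -/
def fn (V : X.Opens) (m : Γ(M, V)) : Γ(N, V) :=
  (exists_unique_glue N (fun i => V ⊓ D.U i) V (fun _ => inf_le_left) (le_iSup_inf D.U D.hU V)
    (D.loc V m) (D.loc_compat V m)).choose

theorem fn_spec (V : X.Opens) (m : Γ(M, V)) (i : ι) :
    Mod.res N (inf_le_left : V ⊓ D.U i ≤ V) (D.fn V m) = D.loc V m i :=
  (exists_unique_glue N (fun i => V ⊓ D.U i) V (fun _ => inf_le_left) (le_iSup_inf D.U D.hU V)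
    (D.loc V m) (D.loc_compat V m)).choose_spec.1 i

theorem fn_unique (V : X.Opens) (m : Γ(M, V)) (y : Γ(N, V))
    (hy : ∀ i, Mod.res N (inf_le_left : V ⊓ D.U i ≤ V) y = D.loc V m i) : y = D.fn V m :=
  eq_of_res_eq N (fun i => V ⊓ D.U i) V (fun _ => inf_le_left) (le_iSup_inf D.U D.hU V) _ _
    (fun i => (hy i).trans (D.fn_spec V m i).symm)

/-- on an open inside a chart the glued map is the local map -/
theorem fn_res_eq (V : X.Opens) (m : Γ(M, V)) (i : ι) {V' : X.Opens} (h : V' ≤ V)
    (h' : V' ≤ D.U i) :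
    Mod.res N h (D.fn V m) = locMap (D.hs i) (D.t i) h' (Mod.res M h m) := by
  have hV' : V' ≤ V ⊓ D.U i := le_inf h h'
  have := congrArg (Mod.res N hV') (D.fn_spec V m i)
  rw [res_res] at this
  rw [this]
  unfold loc
  rw [locMap_res, res_res]

theorem fn_add (V : X.Opens) (m m' : Γ(M, V)) : D.fn V (m + m') = D.fn V m + D.fn V m' := by
  symm
  apply D.fn_unique
  intro i
  rw [res_add, D.fn_spec, D.fn_spec]
  unfold loc
  rw [res_add, locMap_add]

theorem fn_smul (V : X.Opens) (r : Γ(X, V)) (m : Γ(M, V)) : D.fn V (r • m) = r • D.fn V m := by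
  symm
  apply D.fn_unique
  intro i
  rw [res_smul, D.fn_spec]
  unfold loc
  rw [res_smul, locMap_smul]

theorem fn_res (V V' : X.Opens) (h : V' ≤ V) (m : Γ(M, V)) :
    Mod.res N h (D.fn V m) = D.fn V' (Mod.res M h m) := by
  apply D.fn_unique
  intro i
  rw [res_res]
  rw [D.fn_res_eq V m i (inf_le_left.trans h) inf_le_right]
  unfold loc
  rw [res_res]

theorem fn_gen (i : ι) : D.fn (D.U i) (D.s i) = D.t i := by
  have := D.fn_res_eq (D.U i) (D.s i) i (le_refl _) (le_refl _)
  rw [res_self, res_self] at this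
  rw [this]
  have h2 := locMap_gen (D.hs i) (D.t i) (le_refl (D.U i))
  rw [res_self, res_self] at h2
  exact h2

/-- the glued map as a morphism of presheaves of abelian groups -/
def natTrans : M.presheaf ⟶ N.presheaf where
  app V := AddCommGrpCat.ofHom
    { toFun := D.fn V.unop
      map_zero' := by
        have := D.fn_add V.unop 0 0
        rw [add_zero] at this
        exact left_eq_add.mp this
      map_add' := D.fn_add V.unop }
  naturality V W f := by
    ext m
    have h : W.unop ≤ V.unop := leOfHom f.unop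
    exact (D.fn_res V.unop W.unop h m).symm

/-- **the glued morphism** -/
def hom : M ⟶ N :=
  ⟨PresheafOfModules.homMk D.natTrans (fun V r m => D.fn_smul V.unop r m)⟩

theorem hom_app (V : X.Opens) (m : Γ(M, V)) : D.hom.app V m = D.fn V m := rfl

theorem hom_gen (i : ι) : D.hom.app (D.U i) (D.s i) = D.t i := D.fn_gen i

end GlueHomData

/-- two morphisms out of `M` which agree on generators over a cover are equal -/
theorem hom_ext_of_gen {M N : X.Modules} {ι : Type*} (U : ι → X.Opens) (hU : ⨆ i, U i = ⊤)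
    (s : ∀ i, Γ(M, U i)) (hs : ∀ i, IsGen M (U i) (s i)) (α β : M ⟶ N)
    (h : ∀ i, α.app (U i) (s i) = β.app (U i) (s i)) : α = β := by
  apply Scheme.Modules.hom_ext
  intro V
  ext m
  apply eq_of_res_eq N (fun i => V ⊓ U i) V (fun _ => inf_le_left) (le_iSup_inf U hU V)
  intro i
  rw [← app_res, ← app_res]
  have hm := (hs i).coord_smul (inf_le_right : V ⊓ U i ≤ U i)
    (Mod.res M (inf_le_left : V ⊓ U i ≤ V) m)
  rw [← hm, Scheme.Modules.Hom.app_smul, Scheme.Modules.Hom.app_smul, app_res, app_res, h i]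

end Fermat.Agent.S25lib.Mod
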