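/-
S25lib / Mod / IsoOfTrans  (helper7)  --  Project L (S25), brick (M1)(b):
**two modules with generators on a common cover and the same transition functions are isomorphic.**
-/
import Fermat.Agent.S25lib.Mod.GlueHom

set_option autoImplicit false

noncomputable section

universe u

open AlgebraicGeometry CategoryTheory TopologicalSpace

namespace Fermat.Agent.S25lib.Mod

variable {X : Scheme.{u}}

/-- **(M1)(b)** -/
theorem nonempty_iso_of_same_trans {M M' : X.Modules} {ι : Type u} (U : ι → X.Opens)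
    (hU : ⨆ i, U i = ⊤)
    (s : ∀ i, Γ(M, U i)) (hs : ∀ i, IsGen M (U i) (s i))
    (s' : ∀ i, Γ(M', U i)) (hs' : ∀ i, IsGen M' (U i) (s' i))
    (r : ∀ i j, Γ(X, U i ⊓ U j))
    (hr : ∀ i j, Mod.res M (inf_le_left : U i ⊓ U j ≤ U i) (s i) =
      r i j • Mod.res M (inf_le_right : U i ⊓ U j ≤ U j) (s j))
    (hr' : ∀ i j, Mod.res M' (inf_le_left : U i ⊓ U j ≤ U i) (s' i) =
      r i j • Mod.res M' (inf_le_right : U i ⊓ U j ≤ U j) (s' j)) :
    ∃ e : M ≅ M', ∀ i, e.hom.app (U i) (s i) = s' i := by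
  let D : GlueHomData M M' ι := ⟨U, hU, s, hs, s', r, hr, hr'⟩
  let D' : GlueHomData M' M ι := ⟨U, hU, s', hs', s, r, hr', hr⟩
  refine ⟨⟨D.hom, D'.hom, ?_, ?_⟩, fun i => D.hom_gen i⟩
  · apply hom_ext_of_gen U hU s hs
    intro i
    rw [Scheme.Modules.Hom.comp_app, ConcreteCategory.comp_apply]
    have h1 : D.hom.app (U i) (s i) = s' i := D.hom_gen i
    have h2 : D'.hom.app (U i) (s' i) = s i := D'.hom_gen i
    rw [h1, h2]
    rfl
  · apply hom_ext_of_gen U hU s' hs'
    intro i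
    rw [Scheme.Modules.Hom.comp_app, ConcreteCategory.comp_apply]
    have h1 : D.hom.app (U i) (s i) = s' i := D.hom_gen i
    have h2 : D'.hom.app (U i) (s' i) = s i := D'.hom_gen i
    rw [h2, h1]
    rfl

end Fermat.Agent.S25lib.Mod
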