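/-
S25lib / Mod / PullComp  (helper7)  --  Project L (S25), brick (M1)(c): `pullSec` and the pseudofunctor
structure (`pullbackComp`, `pullbackCongr`, `restrictFunctorIsoPullback`).
-/
import Fermat.Agent.S25lib.Mod.IsoOfTrans

set_option autoImplicit false

noncomputable section

universe u

open AlgebraicGeometry CategoryTheory TopologicalSpace

namespace Fermat.Agent.S25lib.Mod

variable {X Y Z : Scheme.{u}}

/-- `pullSec` of a composite: `pullbackComp` maps `pullSec f (pullSec g s)` to `pullSec (f ≫ g) s` -/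
theorem pullbackComp_inv_pullSec (f : X ⟶ Y) (g : Y ⟶ Z) (M : Z.Modules) (V : Z.Opens)
    (s : Γ(M, V)) :
    ((Scheme.Modules.pullbackComp f g).inv.app M).app ((f ≫ g) ⁻¹ᵁ V) (pullSec (f ≫ g) M V s) =
      pullSec f ((Scheme.Modules.pullback g).obj M) (g ⁻¹ᵁ V) (pullSec g M V s) := by
  have h := unit_conjugateEquiv
    ((Scheme.Modules.pullbackPushforwardAdjunction g).comp
      (Scheme.Modules.pullbackPushforwardAdjunction f))
    (Scheme.Modules.pullbackPushforwardAdjunction (f ≫ g))
    (Scheme.Modules.pullbackComp f g).inv M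
  rw [Scheme.Modules.conjugateEquiv_pullbackComp_inv] at h
  have h2 := congrArg (fun φ => (Scheme.Modules.Hom.app φ V) s) h
  exact h2.symm

/-- `pullSec` along an open immersion is restriction, through `restrictFunctorIsoPullback` -/
theorem restrictFunctorIsoPullback_hom_res (j : X ⟶ Y) [IsOpenImmersion j] (M : Y.Modules)
    (V : Y.Opens) (s : Γ(M, V)) :
    ((Scheme.Modules.restrictFunctorIsoPullback j).hom.app M).app (j ⁻¹ᵁ V)
      ((M.restrictAppIso j (j ⁻¹ᵁ V)).inv
        (M.presheaf.map (homOfLE (j.image_preimage_le V)).op s)) =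
      pullSec j M V s := by
  have h := Adjunction.unit_leftAdjointUniq_hom_app (Scheme.Modules.restrictAdjunction j)
    (Scheme.Modules.pullbackPushforwardAdjunction j) M
  have h2 := congrArg (fun φ => (Scheme.Modules.Hom.app φ V) s) h
  exact h2

/-- `pullSec` along equal morphisms -/
theorem pullbackCongr_hom_pullSec {f g : X ⟶ Y} (hfg : f = g) (M : Y.Modules) (V : Y.Opens)
    (s : Γ(M, V)) :
    ((Scheme.Modules.pullbackCongr hfg).hom.app M).app (g ⁻¹ᵁ V)
      (((Scheme.Modules.pullback f).obj M).presheaf.map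
        (eqToHom (show g ⁻¹ᵁ V = f ⁻¹ᵁ V by rw [hfg])).op (pullSec f M V s)) =
      pullSec g M V s := by
  subst hfg
  have : (eqToHom (rfl : f ⁻¹ᵁ V = f ⁻¹ᵁ V)).op = 𝟙 _ := rfl
  rw [this, CategoryTheory.Functor.map_id]
  rfl

end Fermat.Agent.S25lib.Mod
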