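/-
S25lib / Mod / PullGen  (helper7)  --  Project L (S25), brick (M1)(c):
**the pullback of a generator is a generator**: `IsGen M U s → IsGen (f^*M) (f⁻¹U) (pullSec f M U s)`.
-/
import Fermat.Agent.S25lib.Mod.PullComp

set_option autoImplicit false

noncomputable section

universe u

open AlgebraicGeometry CategoryTheory TopologicalSpace

namespace Fermat.Agent.S25lib.Mod

variable {X Y : Scheme.{u}}

/-- a section whose restriction to an equal open is a generator is a generator -/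
theorem isGen_of_res {N : X.Modules} {W W' : X.Opens} (h : W ≤ W') (h' : W' ≤ W) (σ : Γ(N, W'))
    (hσ : IsGen N W (Mod.res N h σ)) : IsGen N W' σ := by
  have := hσ.res h'
  rwa [res_res, res_self] at this

theorem iso_inv_hom_app {A B : X.Modules} (e : A ≅ B) (V : X.Opens) (a : Γ(A, V)) :
    e.inv.app V (e.hom.app V a) = a := by
  have h : (e.hom ≫ e.inv).app V a = (𝟙 A : A ⟶ A).app V a := by rw [e.hom_inv_id]
  exact h

theorem iso_hom_inv_app {A B : X.Modules} (e : A ≅ B) (V : X.Opens) (b : Γ(B, V)) :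
    e.hom.app V (e.inv.app V b) = b := by
  have h : (e.inv ≫ e.hom).app V b = (𝟙 B : B ⟶ B).app V b := by rw [e.inv_hom_id]
  exact h

/-- the case of a global generator -/
theorem isGen_pullSec_top (f : Y ⟶ X) {M : X.Modules} {s : Γ(M, ⊤)} (hs : IsGen M ⊤ s) :
    IsGen ((Scheme.Modules.pullback f).obj M) (f ⁻¹ᵁ ⊤) (pullSec f M ⊤ s) := by
  let e : unitM X ≅ M := isoOfGen M s hs
  have he : e.hom.app ⊤ (oneU ⊤) = s := by
    have := homOfSection_app_one M s ⊤
    rw [res_self] at this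
    exact this
  have h1 : IsGen (unitM Y) (f ⁻¹ᵁ ⊤) (oneU (f ⁻¹ᵁ ⊤)) := isGen_oneU _
  have h2 : IsGen ((Scheme.Modules.pullback f).obj (unitM X)) (f ⁻¹ᵁ ⊤)
      ((Scheme.Modules.pullbackUnitIso f).inv.app (f ⁻¹ᵁ ⊤) (oneU (f ⁻¹ᵁ ⊤))) :=
    h1.map_iso (Scheme.Modules.pullbackUnitIso f).symm
  have h3 : (Scheme.Modules.pullbackUnitIso f).inv.app (f ⁻¹ᵁ ⊤) (oneU (f ⁻¹ᵁ ⊤)) =
      pullSec f (unitM X) ⊤ (oneU ⊤) := by
    have := pullbackUnitIso_pullSec f ⊤ (1 : Γ(X, ⊤))
    rw [map_one] at this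
    have h4 := congrArg ((Scheme.Modules.pullbackUnitIso f).inv.app (f ⁻¹ᵁ ⊤)) this
    exact h4.symm.trans (iso_inv_hom_app (Scheme.Modules.pullbackUnitIso f) (f ⁻¹ᵁ ⊤) _)
  rw [h3] at h2
  have h5 := h2.map_iso ((Scheme.Modules.pullback f).mapIso e)
  rw [Functor.mapIso_hom, ← pullSec_map, he] at h5
  exact h5

/-- the case of a generator over an open equal to `⊤` -/
theorem isGen_pullSec_of_top_le (f : Y ⟶ X) {M : X.Modules} {W : X.Opens} (hW : ⊤ ≤ W)
    {s : Γ(M, W)} (hs : IsGen M W s) :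
    IsGen ((Scheme.Modules.pullback f).obj M) (f ⁻¹ᵁ W) (pullSec f M W s) := by
  have h0 := isGen_pullSec_top f (hs.res hW)
  have hle : f ⁻¹ᵁ ⊤ ≤ f ⁻¹ᵁ W := fun _ hx => hW hx
  have hle' : f ⁻¹ᵁ W ≤ f ⁻¹ᵁ ⊤ := fun _ _ => trivial
  apply isGen_of_res hle hle'
  have := pullSec_res f M hW s
  unfold Mod.res at h0 ⊢
  rw [this] at h0
  exact h0

theorem top_le_ι_preimage_self (U : X.Opens) : (⊤ : U.toScheme.Opens) ≤ U.ι ⁻¹ᵁ U := by
  rw [Scheme.Opens.ι_preimage_self]

/-- `restrictFunctorIsoPullback` maps `toRestrictTop s` to the restriction of `pullSec U.ι s` -/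
theorem restrictFunctorIsoPullback_toRestrictTop (M : X.Modules) (U : X.Opens) (s : Γ(M, U)) :
    ((Scheme.Modules.restrictFunctorIsoPullback U.ι).hom.app M).app ⊤ (toRestrictTop M U s) =
      Mod.res ((Scheme.Modules.pullback U.ι).obj M) (top_le_ι_preimage_self U)
        (pullSec U.ι M U s) := by
  have h0 := restrictFunctorIsoPullback_hom_res U.ι M U s
  have h1 := congrArg (Mod.res ((Scheme.Modules.pullback U.ι).obj M) (top_le_ι_preimage_self U)) h0
  rw [← app_res] at h1
  have hx : Mod.res (M.restrict U.ι) (top_le_ι_preimage_self U)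
      ((M.restrictAppIso U.ι (U.ι ⁻¹ᵁ U)).inv
        (M.presheaf.map (homOfLE (U.ι.image_preimage_le U)).op s)) = toRestrictTop M U s := by
    unfold toRestrictTop Mod.res
    rw [Scheme.Modules.restrictAppIso_inv_map_apply]
    congr 1
    rw [← ConcreteCategory.comp_apply, ← Functor.map_comp]
    rfl
  rw [hx] at h1
  exact h1

/-- **Lemma B**: generators can be tested after pulling back along the inclusion of the open -/
theorem isGen_iff_isGen_pullSec_ι (M : X.Modules) (U : X.Opens) (s : Γ(M, U)) :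
    IsGen M U s ↔
      IsGen ((Scheme.Modules.pullback U.ι).obj M) (U.ι ⁻¹ᵁ U) (pullSec U.ι M U s) := by
  have hle : U.ι ⁻¹ᵁ U ≤ (⊤ : U.toScheme.Opens) := le_top
  constructor
  · intro hs
    have h1 := (isGen_toRestrictTop M U s hs).map_iso
      ((Scheme.Modules.restrictFunctorIsoPullback U.ι).app M)
    rw [Iso.app_hom, restrictFunctorIsoPullback_toRestrictTop] at h1
    exact isGen_of_res (top_le_ι_preimage_self U) hle _ h1
  · intro h
    have h1 := h.res (top_le_ι_preimage_self U)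
    rw [← restrictFunctorIsoPullback_toRestrictTop] at h1
    have h2 := h1.map_iso ((Scheme.Modules.restrictFunctorIsoPullback U.ι).app M).symm
    rw [Iso.symm_hom, Iso.app_inv] at h2
    have h3 : ((Scheme.Modules.restrictFunctorIsoPullback U.ι).inv.app M).app ⊤
        (((Scheme.Modules.restrictFunctorIsoPullback U.ι).hom.app M).app ⊤
          (toRestrictTop M U s)) = toRestrictTop M U s :=
      iso_inv_hom_app ((Scheme.Modules.restrictFunctorIsoPullback U.ι).app M) ⊤ _
    rw [h3] at h2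
    have h4 := isGen_ofRestrictTop M U _ h2
    rwa [ofRestrictTop_toRestrictTop] at h4

/-- transport of `IsGen` along an isomorphism, inverse form -/
theorem IsGen.of_inv_eq {A B : X.Modules} (e : A ≅ B) {W : X.Opens} {a : Γ(A, W)} {b : Γ(B, W)}
    (hab : e.inv.app W b = a) (ha : IsGen A W a) : IsGen B W b := by
  have h := ha.map_iso e
  rw [← hab, iso_hom_inv_app] at h
  exact h

/-- the statement `P(g)` of the proof below -/
theorem isGen_pullSec_congr {f g : Y ⟶ X} (hfg : f = g) {M : X.Modules} {U : X.Opens}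
    {s : Γ(M, U)}
    (h : IsGen ((Scheme.Modules.pullback g).obj M) (g ⁻¹ᵁ U) (pullSec g M U s)) :
    IsGen ((Scheme.Modules.pullback f).obj M) (f ⁻¹ᵁ U) (pullSec f M U s) := by
  subst hfg
  exact h

/-- transport of `IsGen` along an isomorphism -/
theorem IsGen.of_hom_eq {A B : X.Modules} (e : A ≅ B) {W : X.Opens} {a : Γ(A, W)} {b : Γ(B, W)}
    (hab : e.hom.app W a = b) (ha : IsGen A W a) : IsGen B W b := by
  have h := ha.map_iso e
  rwa [hab] at h

/-- **(M1)(c)**: the pullback of a generator is a generator -/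
theorem isGen_pullSec (f : Y ⟶ X) {M : X.Modules} {U : X.Opens} {s : Γ(M, U)}
    (hs : IsGen M U s) :
    IsGen ((Scheme.Modules.pullback f).obj M) (f ⁻¹ᵁ U) (pullSec f M U s) := by
  rw [isGen_iff_isGen_pullSec_ι]
  -- step 1: through `pullbackComp (f ⁻¹ᵁ U).ι f`
  refine IsGen.of_hom_eq ((Scheme.Modules.pullbackComp (f ⁻¹ᵁ U).ι f).app M).symm
    (pullbackComp_inv_pullSec (f ⁻¹ᵁ U).ι f M U s) ?_
  -- step 2: `(f ⁻¹ᵁ U).ι ≫ f = (f ∣_ U) ≫ U.ι`
  apply isGen_pullSec_congr (morphismRestrict_ι f U).symm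
  -- step 3: through `pullbackComp (f ∣_ U) U.ι`
  have h3 := isGen_pullSec_of_top_le (f ∣_ U) (top_le_ι_preimage_self U)
    ((isGen_iff_isGen_pullSec_ι M U s).mp hs)
  exact IsGen.of_inv_eq ((Scheme.Modules.pullbackComp (f ∣_ U) U.ι).app M)
    (pullbackComp_inv_pullSec (f ∣_ U) U.ι M U s) h3

end Fermat.Agent.S25lib.Mod
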