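/-
S25lib / Mod / End  (helper7)  --  Project L (S25): endomorphisms of an invertible module are the global
functions.
* `smulHom M a : M ⟶ M`: multiplication by `a ∈ Γ(X, ⊤)`.
* `exists_smulHom_eq`: for `M` with local generators every endomorphism is a `smulHom`.
* `smulHom_eq_id_iff`: with local generators, `smulHom M a = 𝟙 ↔ a = 1`.
* `pullback_map_smulHom`: `f^*(smulHom M a) = smulHom (f^*M) (f^♯ a)`.
-/
import Fermat.Agent.S25lib.Mod.PullGen
import Fermat.Agent.S25lib.Mod.GlueO

set_option autoImplicit false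

noncomputable section

universe u

open AlgebraicGeometry CategoryTheory TopologicalSpace

namespace Fermat.Agent.S25lib.Mod

variable {X : Scheme.{u}}

/-- multiplication by a global function on sections -/
def smulFn (M : X.Modules) (a : Γ(X, ⊤)) (V : X.Opens) (m : Γ(M, V)) : Γ(M, V) :=
  resO (le_top : V ≤ ⊤) a • m

theorem smulFn_add (M : X.Modules) (a : Γ(X, ⊤)) (V : X.Opens) (m m' : Γ(M, V)) :
    smulFn M a V (m + m') = smulFn M a V m + smulFn M a V m' := smul_add _ _ _

theorem smulFn_smul (M : X.Modules) (a : Γ(X, ⊤)) (V : X.Opens) (r : Γ(X, V)) (m : Γ(M, V)) :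
    smulFn M a V (r • m) = r • smulFn M a V m := smul_comm _ _ _

theorem smulFn_res (M : X.Modules) (a : Γ(X, ⊤)) {V W : X.Opens} (h : W ≤ V) (m : Γ(M, V)) :
    Mod.res M h (smulFn M a V m) = smulFn M a W (Mod.res M h m) := by
  unfold smulFn
  rw [res_smul, resO_resO]

/-- multiplication by a global function, as a morphism of presheaves of abelian groups -/
def smulNatTrans (M : X.Modules) (a : Γ(X, ⊤)) : M.presheaf ⟶ M.presheaf where
  app V := AddCommGrpCat.ofHom
    { toFun := smulFn M a V.unop
      map_zero' := by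
        have := smulFn_add M a V.unop 0 0
        rw [add_zero] at this
        exact left_eq_add.mp this
      map_add' := smulFn_add M a V.unop }
  naturality V W f := by
    ext m
    have h : W.unop ≤ V.unop := leOfHom f.unop
    exact (smulFn_res M a h m).symm

/-- **multiplication by a global function** -/
def smulHom (M : X.Modules) (a : Γ(X, ⊤)) : M ⟶ M :=
  ⟨PresheafOfModules.homMk (smulNatTrans M a) (fun V r m => smulFn_smul M a V.unop r m)⟩

theorem smulHom_app (M : X.Modules) (a : Γ(X, ⊤)) (V : X.Opens) (m : Γ(M, V)) :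
    (smulHom M a).app V m = resO (le_top : V ≤ ⊤) a • m := rfl

theorem smulHom_one (M : X.Modules) : smulHom M 1 = 𝟙 M := by
  apply Scheme.Modules.hom_ext
  intro V
  ext m
  rw [smulHom_app, resO_one, one_smul]
  rfl

/-- `M` has local generators (`⇔` invertible, `isInvertible_iff_exists_isGen`) -/
def LocGen (M : X.Modules) : Prop :=
  ∀ x : X, ∃ U : X.Opens, x ∈ U ∧ ∃ s : Γ(M, U), IsGen M U s

theorem locGen_of_isInvertible {M : X.Modules} (hM : Scheme.Modules.IsInvertible M) : LocGen M :=
  (isInvertible_iff_exists_isGen M).mp hM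

/-- a chosen system of local generators -/
structure GenSys (M : X.Modules) where
  U : X → X.Opens
  mem : ∀ x, x ∈ U x
  s : ∀ x, Γ(M, U x)
  hs : ∀ x, IsGen M (U x) (s x)

theorem LocGen.nonempty_genSys {M : X.Modules} (hM : LocGen M) : Nonempty (GenSys M) := by
  choose U hU s hs using hM
  exact ⟨⟨U, hU, s, hs⟩⟩

theorem GenSys.iSup_eq_top {M : X.Modules} (G : GenSys M) : ⨆ x, G.U x = ⊤ := by
  rw [eq_top_iff]
  intro x _
  exact Opens.mem_iSup.mpr ⟨x, G.mem x⟩

/-- **every endomorphism of a module with local generators is the multiplication by a global function** -/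
theorem exists_smulHom_eq {M : X.Modules} (hM : LocGen M) (α : M ⟶ M) :
    ∃ a : Γ(X, ⊤), α = smulHom M a := by
  obtain ⟨G⟩ := hM.nonempty_genSys
  let b : ∀ x, Γ(X, G.U x) := fun x => (G.hs x).coord (le_refl _) (α.app (G.U x) (G.s x))
  have hb : ∀ x, α.app (G.U x) (G.s x) = b x • G.s x := by
    intro x
    have := (G.hs x).coord_smul (le_refl _) (α.app (G.U x) (G.s x))
    rw [res_self] at this
    exact this.symm
  have hcompat : ∀ x y, resO (inf_le_left : G.U x ⊓ G.U y ≤ G.U x) (b x) =
      resO (inf_le_right : G.U x ⊓ G.U y ≤ G.U y) (b y) := by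
    intro x y
    set W := G.U x ⊓ G.U y with hW
    have hlx : W ≤ G.U x := inf_le_left
    have hly : W ≤ G.U y := inf_le_right
    have hx : IsGen M W (Mod.res M hlx (G.s x)) := (G.hs x).res hlx
    have hy : IsGen M W (Mod.res M hly (G.s y)) := (G.hs y).res hly
    -- `s_x| = r • s_y|`
    set r := hy.coord (le_refl W) (Mod.res M hlx (G.s x)) with hr
    have hrs : r • Mod.res M hly (G.s y) = Mod.res M hlx (G.s x) := by
      have := hy.coord_smul (le_refl W) (Mod.res M hlx (G.s x))
      rw [res_self] at this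
      exact this
    have h1 : α.app W (Mod.res M hlx (G.s x)) =
        resO hlx (b x) • Mod.res M hlx (G.s x) := by
      rw [app_res, hb x, res_smul]
    have h2 : α.app W (Mod.res M hly (G.s y)) =
        resO hly (b y) • Mod.res M hly (G.s y) := by
      rw [app_res, hb y, res_smul]
    have h3 : α.app W (Mod.res M hlx (G.s x)) =
        resO hly (b y) • Mod.res M hlx (G.s x) := by
      rw [← hrs, Scheme.Modules.Hom.app_smul, h2, smul_comm]
    have h4 := h1.symm.trans h3
    have := (hx W (le_refl W)).1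
    apply this
    simpa only [res_self] using h4
  obtain ⟨a, ha, -⟩ := exists_unique_glueO G.U ⊤ (fun _ => le_top) (by rw [G.iSup_eq_top]) b hcompat
  refine ⟨a, ?_⟩
  apply hom_ext_of_gen G.U G.iSup_eq_top G.s G.hs
  intro x
  rw [hb x, smulHom_app, ha x]

/-- with local generators, the multiplication by `a` is the identity iff `a = 1` -/
theorem smulHom_eq_id_iff {M : X.Modules} (hM : LocGen M) (a : Γ(X, ⊤)) :
    smulHom M a = 𝟙 M ↔ a = 1 := by
  constructor
  · intro h
    obtain ⟨G⟩ := hM.nonempty_genSys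
    apply eq_of_resO_eq G.U ⊤ (fun _ => le_top) (by rw [G.iSup_eq_top])
    intro x
    have h1 : (smulHom M a).app (G.U x) (G.s x) = G.s x := by
      rw [h]
      rfl
    rw [smulHom_app] at h1
    have := ((G.hs x) (G.U x) (le_refl _)).1
    apply this
    simp only [res_self]
    rw [h1, resO_one, one_smul]
  · rintro rfl
    exact smulHom_one M

/-- the pullback of a module with local generators has local generators -/
theorem LocGen.pullback {Y : Scheme.{u}} (f : Y ⟶ X) {M : X.Modules} (hM : LocGen M) :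
    LocGen ((Scheme.Modules.pullback f).obj M) := by
  intro y
  obtain ⟨U, hU, s, hs⟩ := hM (f y)
  exact ⟨f ⁻¹ᵁ U, hU, pullSec f M U s, isGen_pullSec f hs⟩

theorem app_resO_top {Y : Scheme.{u}} (f : Y ⟶ X) (U : X.Opens) (a : Γ(X, ⊤)) :
    f.app U (resO (le_top : U ≤ ⊤) a) = resO (le_top : f ⁻¹ᵁ U ≤ ⊤) (f.appTop a) := by
  have := f.naturality (homOfLE (le_top : U ≤ ⊤)).op
  exact congr($this a)

/-- **the pullback of the multiplication by `a` is the multiplication by `f^♯ a`** -/
theorem pullback_map_smulHom {Y : Scheme.{u}} (f : Y ⟶ X) {M : X.Modules} (hM : LocGen M)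
    (a : Γ(X, ⊤)) :
    (Scheme.Modules.pullback f).map (smulHom M a) =
      smulHom ((Scheme.Modules.pullback f).obj M) (f.appTop a) := by
  obtain ⟨G⟩ := hM.nonempty_genSys
  have hcov : ⨆ x : X, f ⁻¹ᵁ G.U x = ⊤ := by
    rw [eq_top_iff]
    intro y _
    exact Opens.mem_iSup.mpr ⟨f y, G.mem (f y)⟩
  apply hom_ext_of_gen (fun x : X => f ⁻¹ᵁ G.U x) hcov (fun x => pullSec f M (G.U x) (G.s x))
    (fun x => isGen_pullSec f (G.hs x))
  intro x
  rw [← pullSec_map, smulHom_app, smulHom_app, pullSec_smul, app_resO_top]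

end Fermat.Agent.S25lib.Mod
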