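/-
S25lib / Mod / Classify  (helper7)  --  Project L (S25): **every module with local generators is the module
of a cocycle indexed by the points.**
* `GenSys.cocycle G : Cocycle X X` (opens `G.U x`, `u x y` = the coordinate of `s_x` with respect to `s_y`);
* `GenSys.exists_iso G : ∃ e : M ≅ G.cocycle.toModule, ∀ x, e.hom (G.s x) = gen x`;
* `exists_cocycle_iso`: for `M` invertible there is a cocycle `c : Cocycle X X` with `M ≅ c.toModule`.
-/
import Fermat.Agent.S25lib.Mod.End
import Fermat.Agent.S25lib.Mod.CocycleGen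
import Fermat.Agent.S25lib.Mod.IsoOfTrans

set_option autoImplicit false

noncomputable section

universe u

open AlgebraicGeometry CategoryTheory TopologicalSpace

namespace Fermat.Agent.S25lib.Mod

variable {X : Scheme.{u}} {M : X.Modules}

namespace GenSys

variable (G : GenSys M)

/-- the transition function: `s_x = trans x y • s_y` on `U x ⊓ U y` -/
def trans (x y : X) : Γ(X, G.U x ⊓ G.U y) :=
  (G.hs y).coord (inf_le_right : G.U x ⊓ G.U y ≤ G.U y)
    (Mod.res M (inf_le_left : G.U x ⊓ G.U y ≤ G.U x) (G.s x))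

theorem trans_smul (x y : X) :
    G.trans x y • Mod.res M (inf_le_right : G.U x ⊓ G.U y ≤ G.U y) (G.s y) =
      Mod.res M (inf_le_left : G.U x ⊓ G.U y ≤ G.U x) (G.s x) :=
  (G.hs y).coord_smul _ _

theorem trans_self (x : X) : G.trans x x = 1 := by
  apply (G.hs x).coord_unique
  rw [one_smul]

theorem trans_mul (x y z : X) :
    resO (le_inf (inf_le_left.trans inf_le_left) (inf_le_left.trans inf_le_right) :
        G.U x ⊓ G.U y ⊓ G.U z ≤ G.U x ⊓ G.U y) (G.trans x y) *
      resO (le_inf (inf_le_left.trans inf_le_right) inf_le_right :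
        G.U x ⊓ G.U y ⊓ G.U z ≤ G.U y ⊓ G.U z) (G.trans y z) =
      resO (le_inf (inf_le_left.trans inf_le_left) inf_le_right :
        G.U x ⊓ G.U y ⊓ G.U z ≤ G.U x ⊓ G.U z) (G.trans x z) := by
  set W := G.U x ⊓ G.U y ⊓ G.U z with hW
  have hWx : W ≤ G.U x := inf_le_left.trans inf_le_left
  have hWy : W ≤ G.U y := inf_le_left.trans inf_le_right
  have hWz : W ≤ G.U z := inf_le_right
  have hxy := congrArg (Mod.res M (le_inf hWx hWy : W ≤ G.U x ⊓ G.U y)) (G.trans_smul x y)
  have hyz := congrArg (Mod.res M (le_inf hWy hWz : W ≤ G.U y ⊓ G.U z)) (G.trans_smul y z)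
  have hxz := congrArg (Mod.res M (le_inf hWx hWz : W ≤ G.U x ⊓ G.U z)) (G.trans_smul x z)
  rw [res_smul, res_res, res_res] at hxy hyz hxz
  have hz : IsGen M W (Mod.res M hWz (G.s z)) := (G.hs z).res hWz
  have := (hz W (le_refl W)).1
  apply this
  simp only [res_self]
  rw [mul_smul, hyz, hxy, hxz]

/-- **the cocycle of a system of generators** -/
def cocycle : Cocycle X X where
  U := G.U
  hU := G.iSup_eq_top
  u := G.trans
  u_self := G.trans_self
  u_mul := G.trans_mul

/-- **classification**: `M` is the module of the cocycle of any of its systems of generators -/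
theorem exists_iso : ∃ e : M ≅ G.cocycle.toModule,
    ∀ x, e.hom.app (G.U x) (G.s x) = G.cocycle.gen x := by
  refine nonempty_iso_of_same_trans G.U G.iSup_eq_top G.s G.hs (fun x => G.cocycle.gen x)
    (fun x => G.cocycle.isGen_gen x) G.trans (fun x y => (G.trans_smul x y).symm) ?_
  intro x y
  exact G.cocycle.res_gen x y

end GenSys

/-- **every invertible module is the module of a cocycle indexed by the points** -/
theorem exists_cocycle_iso (hM : LocGen M) : ∃ c : Cocycle X X, Nonempty (M ≅ c.toModule) := by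
  obtain ⟨G⟩ := hM.nonempty_genSys
  obtain ⟨e, -⟩ := G.exists_iso
  exact ⟨G.cocycle, ⟨e⟩⟩

theorem exists_cocycle_iso_of_isInvertible (hM : Scheme.Modules.IsInvertible M) :
    ∃ c : Cocycle X X, Nonempty (M ≅ c.toModule) :=
  exists_cocycle_iso (locGen_of_isInvertible hM)

end Fermat.Agent.S25lib.Mod
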