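/-
S25lib / Mod / CocyclePull  (helper7)  --  Project L (S25): **the pullback of the module of a cocycle is the
module of the pulled-back cocycle.**
* `Cocycle.pull f c : Cocycle Y ι` (opens `f ⁻¹ᵁ U i`, functions `f^♯ (u i j)`);
* `Cocycle.exists_pullback_iso f c : ∃ e : f^*(c.toModule) ≅ (c.pull f).toModule, e (pullSec (gen i)) = gen i`.
-/
import Fermat.Agent.S25lib.Mod.Classify

set_option autoImplicit false

noncomputable section

universe u

open AlgebraicGeometry CategoryTheory TopologicalSpace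

namespace Fermat.Agent.S25lib.Mod

variable {X Y : Scheme.{u}}

theorem preimage_mono (f : Y ⟶ X) {U V : X.Opens} (h : V ≤ U) : f ⁻¹ᵁ V ≤ f ⁻¹ᵁ U :=
  fun _ hx => h hx

/-- `f^♯` commutes with restriction -/
theorem app_resO (f : Y ⟶ X) {U V : X.Opens} (h : V ≤ U) (r : Γ(X, U)) :
    f.app V (resO h r) = resO (preimage_mono f h) (f.app U r) := by
  have := f.naturality (homOfLE h).op
  exact congr($this r)

/-- `pullSec` commutes with restriction (`res` form) -/
theorem pullSec_res' (f : Y ⟶ X) (M : X.Modules) {U V : X.Opens} (h : V ≤ U) (s : Γ(M, U)) :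
    pullSec f M V (Mod.res M h s) =
      Mod.res ((Scheme.Modules.pullback f).obj M) (preimage_mono f h) (pullSec f M U s) :=
  pullSec_res f M h s

namespace Cocycle

variable {ι : Type u} (f : Y ⟶ X) (c : Cocycle X ι)

/-- **the pulled-back cocycle** -/
def pull : Cocycle Y ι where
  U i := f ⁻¹ᵁ c.U i
  hU := by
    rw [eq_top_iff]
    intro y _
    have hy : f y ∈ (⨆ i, c.U i : X.Opens) := by rw [c.hU]; trivial
    obtain ⟨i, hi⟩ := Opens.mem_iSup.mp hy
    exact Opens.mem_iSup.mpr ⟨i, hi⟩
  u i j := f.app (c.U i ⊓ c.U j) (c.u i j)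
  u_self i := by
    rw [c.u_self]
    exact map_one _
  u_mul i j k := by
    have h := congrArg (f.app (c.U i ⊓ c.U j ⊓ c.U k)) (c.u_mul i j k)
    rw [map_mul, app_resO, app_resO, app_resO] at h
    exact h

theorem pull_U (i : ι) : (c.pull f).U i = f ⁻¹ᵁ c.U i := rfl

theorem pull_u (i j : ι) : (c.pull f).u i j = f.app (c.U i ⊓ c.U j) (c.u i j) := rfl

/-- **the pullback of the module of a cocycle** -/
theorem exists_pullback_iso :
    ∃ e : (Scheme.Modules.pullback f).obj c.toModule ≅ (c.pull f).toModule,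
      ∀ i, e.hom.app (f ⁻¹ᵁ c.U i) (pullSec f c.toModule (c.U i) (c.gen i)) = (c.pull f).gen i := by
  refine nonempty_iso_of_same_trans (fun i => f ⁻¹ᵁ c.U i) (c.pull f).hU
    (fun i => pullSec f c.toModule (c.U i) (c.gen i)) (fun i => isGen_pullSec f (c.isGen_gen i))
    (fun i => (c.pull f).gen i) (fun i => (c.pull f).isGen_gen i)
    (fun i j => (c.pull f).u i j) ?_ (fun i j => (c.pull f).res_gen i j)
  intro i j
  have h := congrArg (pullSec f c.toModule (c.U i ⊓ c.U j)) (c.res_gen i j)
  rw [pullSec_smul, pullSec_res', pullSec_res'] at h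
  exact h

end Cocycle

end Fermat.Agent.S25lib.Mod
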