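/-
S25lib / Mod / OpenImm  (helper7)  --  Project L (S25): sections of a pullback along an open immersion.
`pullSec j M V : Γ(M, V) → Γ(j^*M, j ⁻¹ᵁ V)` is bijective for an open immersion `j` and `V ≤ j.opensRange`
(any module `M`).
-/
import Fermat.Agent.S25lib.Mod.CocyclePull

set_option autoImplicit false

noncomputable section

universe u

open AlgebraicGeometry CategoryTheory TopologicalSpace

namespace Fermat.Agent.S25lib.Mod

variable {X Y : Scheme.{u}}

theorem bijective_app_of_iso {A B : X.Modules} (e : A ≅ B) (V : X.Opens) :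
    Function.Bijective (e.hom.app V) :=
  ⟨fun a a' h => by rw [← iso_inv_hom_app e V a, h, iso_inv_hom_app],
    fun b => ⟨e.inv.app V b, iso_hom_inv_app e V b⟩⟩

theorem bijective_presheaf_map_of_eq (M : X.Modules) {U V : X.Opens} (h : V ≤ U) (h' : U = V) :
    Function.Bijective (M.presheaf.map (homOfLE h).op) := by
  subst h'
  have : (homOfLE h).op = 𝟙 (Opposite.op U) := rfl
  rw [this, M.presheaf.map_id]
  exact Function.bijective_id

/-- **sections of the pullback along an open immersion** -/
theorem pullSec_bijective_of_isOpenImmersion (j : Y ⟶ X) [IsOpenImmersion j] (M : X.Modules)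
    (V : X.Opens) (hV : V ≤ j.opensRange) : Function.Bijective (pullSec j M V) := by
  have himg : V = j ''ᵁ (j ⁻¹ᵁ V) := by
    rw [j.image_preimage_eq_opensRange_inf, inf_eq_right.mpr hV]
  have key : pullSec j M V =
      (fun x => ((Scheme.Modules.restrictFunctorIsoPullback j).hom.app M).app (j ⁻¹ᵁ V) x) ∘
        (fun x => (M.restrictAppIso j (j ⁻¹ᵁ V)).inv x) ∘
        (fun s => M.presheaf.map (homOfLE (j.image_preimage_le V)).op s) := by
    funext s
    exact (restrictFunctorIsoPullback_hom_res j M V s).symm
  rw [key]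
  refine Function.Bijective.comp ?_ (Function.Bijective.comp ?_ ?_)
  · exact bijective_app_of_iso ((Scheme.Modules.restrictFunctorIsoPullback j).app M) (j ⁻¹ᵁ V)
  · exact ConcreteCategory.bijective_of_isIso (M.restrictAppIso j (j ⁻¹ᵁ V)).inv
  · exact bijective_presheaf_map_of_eq M _ himg

end Fermat.Agent.S25lib.Mod
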