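/-
S25lib / Mod / Twist  (helper7)  --  Project L (S25): **the twist of a module by a cocycle**
(`= M ⊗ c.toModule`), as a functor on modules.  The sections of `c.twist M` over `V` are the families
`m i ∈ Γ(M, V ⊓ U i)` with `m j = u i j • m i` on `V ⊓ U i ⊓ U j`.
This file: the groups of sections with their module structures and restrictions.
-/
import Fermat.Agent.S25lib.Mod.OpenImm

set_option autoImplicit false

noncomputable section

universe u

open AlgebraicGeometry CategoryTheory TopologicalSpace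

namespace Fermat.Agent.S25lib.Mod

namespace Cocycle

variable {X : Scheme.{u}} {ι : Type u} (c : Cocycle X ι) (M : X.Modules)

/-- the relation defining the sections of the twist over `V` -/
def IsTSec (V : X.Opens) (m : ∀ i, Γ(M, V ⊓ c.U i)) : Prop :=
  ∀ i j,
    Mod.res M (le_inf (inf_le_left.trans inf_le_left) inf_le_right :
        V ⊓ c.U i ⊓ c.U j ≤ V ⊓ c.U j) (m j) =
      resO (le_inf (inf_le_left.trans inf_le_right) inf_le_right :
          V ⊓ c.U i ⊓ c.U j ≤ c.U i ⊓ c.U j) (c.u i j) •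
        Mod.res M (inf_le_left : V ⊓ c.U i ⊓ c.U j ≤ V ⊓ c.U i) (m i)

/-- the group of sections of the twist over `V` -/
def tsec (V : X.Opens) : AddSubgroup (∀ i, Γ(M, V ⊓ c.U i)) where
  carrier := {m | c.IsTSec M V m}
  zero_mem' := by
    intro i j
    simp only [Pi.zero_apply]
    rw [res_zero, res_zero, smul_zero]
  add_mem' := by
    intro a b ha hb i j
    simp only [Pi.add_apply]
    rw [res_add, res_add, ha i j, hb i j, smul_add]
  neg_mem' := by
    intro a ha i j
    simp only [Pi.neg_apply]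
    rw [show Mod.res M _ (-a j) = -Mod.res M _ (a j) from map_neg _ _,
      show Mod.res M _ (-a i) = -Mod.res M _ (a i) from map_neg _ _, ha i j, smul_neg]

/-- restriction of families -/
def tresFam {V V' : X.Opens} (h : V' ≤ V) (m : ∀ i, Γ(M, V ⊓ c.U i)) : ∀ i, Γ(M, V' ⊓ c.U i) :=
  fun i => Mod.res M (inf_le_inf_right (c.U i) h) (m i)

theorem isTSec_tresFam {V V' : X.Opens} (h : V' ≤ V) {m : ∀ i, Γ(M, V ⊓ c.U i)}
    (hm : c.IsTSec M V m) : c.IsTSec M V' (c.tresFam M h m) := by
  intro i j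
  unfold tresFam
  have := congrArg (Mod.res M (inf_le_inf_right (c.U j) (inf_le_inf_right (c.U i) h) :
    V' ⊓ c.U i ⊓ c.U j ≤ V ⊓ c.U i ⊓ c.U j)) (hm i j)
  rw [res_smul, res_res, res_res, resO_resO] at this
  rw [res_res, res_res]
  exact this

/-- the action of functions on families -/
def tsmulFam {V : X.Opens} (r : Γ(X, V)) (m : ∀ i, Γ(M, V ⊓ c.U i)) : ∀ i, Γ(M, V ⊓ c.U i) :=
  fun i => resO (inf_le_left : V ⊓ c.U i ≤ V) r • m i

theorem isTSec_tsmulFam {V : X.Opens} (r : Γ(X, V)) {m : ∀ i, Γ(M, V ⊓ c.U i)}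
    (hm : c.IsTSec M V m) : c.IsTSec M V (c.tsmulFam M r m) := by
  intro i j
  unfold tsmulFam
  rw [res_smul, res_smul, resO_resO, resO_resO, hm i j, smul_comm]

end Cocycle

end Fermat.Agent.S25lib.Mod
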