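/-
S25lib / Mod / TwistPresheaf  (helper7)  --  Project L (S25): the presheaf of modules of the twist of a module
by a cocycle.
-/
import Fermat.Agent.S25lib.Mod.Twist

set_option autoImplicit false

noncomputable section

universe u

open AlgebraicGeometry CategoryTheory TopologicalSpace

namespace Fermat.Agent.S25lib.Mod

namespace Cocycle

variable {X : Scheme.{u}} {ι : Type u} (c : Cocycle X ι) (M : X.Modules)

/-- the module structure on the sections of the twist over `V` -/
instance tsecModule (V : X.Opens) : Module Γ(X, V) (c.tsec M V) where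
  smul r a := ⟨c.tsmulFam M r a.1, c.isTSec_tsmulFam M r a.2⟩
  one_smul a := by
    apply Subtype.ext
    funext i
    change resO (inf_le_left : V ⊓ c.U i ≤ V) (1 : Γ(X, V)) • a.1 i = a.1 i
    rw [resO_one, one_smul]
  mul_smul r r' a := by
    apply Subtype.ext
    funext i
    change resO (inf_le_left : V ⊓ c.U i ≤ V) (r * r') • a.1 i = resO (inf_le_left : V ⊓ c.U i ≤ V) r • (resO (inf_le_left : V ⊓ c.U i ≤ V) r' • a.1 i)
    rw [resO_mul, mul_smul]
  smul_zero r := by
    apply Subtype.ext
    funext i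
    change resO (inf_le_left : V ⊓ c.U i ≤ V) r • (0 : Γ(M, V ⊓ c.U i)) = 0
    rw [smul_zero]
  smul_add r a b := by
    apply Subtype.ext
    funext i
    change resO (inf_le_left : V ⊓ c.U i ≤ V) r • (a.1 i + b.1 i) = resO (inf_le_left : V ⊓ c.U i ≤ V) r • a.1 i + resO (inf_le_left : V ⊓ c.U i ≤ V) r • b.1 i
    rw [smul_add]
  add_smul r r' a := by
    apply Subtype.ext
    funext i
    change resO (inf_le_left : V ⊓ c.U i ≤ V) (r + r') • a.1 i = resO (inf_le_left : V ⊓ c.U i ≤ V) r • a.1 i + resO (inf_le_left : V ⊓ c.U i ≤ V) r' • a.1 i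
    rw [resO_add, add_smul]
  zero_smul a := by
    apply Subtype.ext
    funext i
    change resO (inf_le_left : V ⊓ c.U i ≤ V) (0 : Γ(X, V)) • a.1 i = 0
    rw [show resO (inf_le_left : V ⊓ c.U i ≤ V) (0 : Γ(X, V)) = 0 from map_zero _, zero_smul]

theorem tsmul_val {V : X.Opens} (r : Γ(X, V)) (a : c.tsec M V) (i : ι) :
    (r • a).1 i = resO (inf_le_left : V ⊓ c.U i ≤ V) r • a.1 i := rfl

/-- restriction of sections of the twist -/
def tresSec {V V' : X.Opens} (h : V' ≤ V) : c.tsec M V →+ c.tsec M V' where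
  toFun a := ⟨c.tresFam M h a.1, c.isTSec_tresFam M h a.2⟩
  map_zero' := by
    apply Subtype.ext
    funext i
    change Mod.res M _ (0 : Γ(M, V ⊓ c.U i)) = 0
    exact res_zero M _
  map_add' a b := by
    apply Subtype.ext
    funext i
    change Mod.res M _ (a.1 i + b.1 i) = Mod.res M _ (a.1 i) + Mod.res M _ (b.1 i)
    exact res_add M _ _ _

theorem tresSec_val {V V' : X.Opens} (h : V' ≤ V) (a : c.tsec M V) (i : ι) :
    (c.tresSec M h a).1 i = Mod.res M (inf_le_inf_right (c.U i) h) (a.1 i) := rfl

theorem tresSec_smul {V V' : X.Opens} (h : V' ≤ V) (r : Γ(X, V)) (a : c.tsec M V) :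
    c.tresSec M h (r • a) = resO h r • c.tresSec M h a := by
  apply Subtype.ext
  funext i
  rw [tresSec_val, tsmul_val, tsmul_val, tresSec_val, res_smul, resO_resO, resO_resO]

theorem tresSec_self {V : X.Opens} (a : c.tsec M V) : c.tresSec M (le_refl V) a = a := by
  apply Subtype.ext
  funext i
  rw [tresSec_val]
  exact res_self M _

theorem tresSec_tresSec {V V' V'' : X.Opens} (h : V' ≤ V) (h' : V'' ≤ V') (a : c.tsec M V) :
    c.tresSec M h' (c.tresSec M h a) = c.tresSec M (h'.trans h) a := by
  apply Subtype.ext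
  funext i
  rw [tresSec_val, tresSec_val, tresSec_val, res_res]

/-- the presheaf of abelian groups of the twist -/
def tabPresheaf : TopCat.Presheaf Ab X where
  obj V := AddCommGrpCat.of (c.tsec M V.unop)
  map {V W} f := AddCommGrpCat.ofHom (c.tresSec M (leOfHom f.unop))
  map_id V := by
    ext a : 2
    exact c.tresSec_self M a
  map_comp {V W Z} f g := by
    ext a : 2
    exact (c.tresSec_tresSec M (leOfHom f.unop) (leOfHom g.unop) a).symm

instance tabPresheafModule (V : (Opens X)ᵒᵖ) :
    Module (X.ringCatSheaf.obj.obj V) ((c.tabPresheaf M).obj V) :=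
  c.tsecModule M V.unop

/-- the presheaf of modules of the twist -/
def tpresheafOfModules : PresheafOfModules.{u} X.ringCatSheaf.obj :=
  PresheafOfModules.ofPresheaf (c.tabPresheaf M)
    (fun _ _ f r m => c.tresSec_smul M (leOfHom f.unop) r m)

theorem tabPresheaf_map_apply {V W : (Opens X)ᵒᵖ} (f : V ⟶ W) (a : c.tsec M V.unop) :
    (c.tabPresheaf M).map f a = c.tresSec M (leOfHom f.unop) a := rfl

end Cocycle

end Fermat.Agent.S25lib.Mod
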