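/-
S25lib / Mod / TwistSheaf  (helper7)  --  Project L (S25): the twist of a module by a cocycle is a sheaf of
modules: **`Cocycle.twist c M : X.Modules`**.
-/
import Fermat.Agent.S25lib.Mod.TwistPresheaf

set_option autoImplicit false

noncomputable section

universe u

open AlgebraicGeometry CategoryTheory TopologicalSpace

namespace Fermat.Agent.S25lib.Mod

namespace Cocycle

variable {X : Scheme.{u}} {ι : Type u} (c : Cocycle X ι) (M : X.Modules)

section Sheaf

variable {κ : Type u} (W : κ → Opens X) (sf : ∀ k, c.tsec M (W k))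
  (hsf : ∀ k l, c.tresSec M (inf_le_left : W k ⊓ W l ≤ W k) (sf k) =
    c.tresSec M (inf_le_right : W k ⊓ W l ≤ W l) (sf l))

include hsf in
theorem tglue_compat (i : ι) (k l : κ) :
    Mod.res M (inf_le_left : (W k ⊓ c.U i) ⊓ (W l ⊓ c.U i) ≤ W k ⊓ c.U i) ((sf k).1 i) =
      Mod.res M (inf_le_right : (W k ⊓ c.U i) ⊓ (W l ⊓ c.U i) ≤ W l ⊓ c.U i) ((sf l).1 i) := by
  have h := congrArg (fun a : c.tsec M (W k ⊓ W l) => a.1 i) (hsf k l)
  simp only [tresSec_val] at h
  have hle : (W k ⊓ c.U i) ⊓ (W l ⊓ c.U i) ≤ (W k ⊓ W l) ⊓ c.U i :=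
    le_inf (le_inf (inf_le_left.trans inf_le_left) (inf_le_right.trans inf_le_left))
      (inf_le_left.trans inf_le_right)
  have h2 := congrArg (Mod.res M hle) h
  rw [res_res, res_res] at h2
  exact h2

/-- the glued family -/
def tglueFam (i : ι) : Γ(M, (⨆ k, W k) ⊓ c.U i) :=
  (exists_unique_glue M (fun k => W k ⊓ c.U i) ((⨆ k, W k) ⊓ c.U i)
    (fun k => inf_le_inf_right (c.U i) (le_iSup W k)) (c.cover_inf W i)
    (fun k => (sf k).1 i) (c.tglue_compat M W sf hsf i)).choose

theorem tglueFam_spec (i : ι) (k : κ) :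
    Mod.res M (inf_le_inf_right (c.U i) (le_iSup W k)) (c.tglueFam M W sf hsf i) = (sf k).1 i :=
  (exists_unique_glue M (fun k => W k ⊓ c.U i) ((⨆ k, W k) ⊓ c.U i)
    (fun k => inf_le_inf_right (c.U i) (le_iSup W k)) (c.cover_inf W i)
    (fun k => (sf k).1 i) (c.tglue_compat M W sf hsf i)).choose_spec.1 k

theorem isTSec_tglueFam : c.IsTSec M (⨆ k, W k) (c.tglueFam M W sf hsf) := by
  intro i j
  apply eq_of_res_eq M (fun k => W k ⊓ c.U i ⊓ c.U j) ((⨆ k, W k) ⊓ c.U i ⊓ c.U j)
    (fun k => inf_le_inf_right (c.U j) (inf_le_inf_right (c.U i) (le_iSup W k)))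
    (by rw [iSup_inf_eq, iSup_inf_eq])
  intro k
  rw [res_smul, res_res, res_res, resO_resO]
  have hk := (sf k).2 i j
  have e1 : Mod.res M (le_inf (inf_le_left.trans inf_le_left) inf_le_right :
      W k ⊓ c.U i ⊓ c.U j ≤ W k ⊓ c.U j) ((sf k).1 j) =
      Mod.res M ((inf_le_inf_right (c.U j) (inf_le_inf_right (c.U i) (le_iSup W k))).trans
        (le_inf (inf_le_left.trans inf_le_left) inf_le_right))
        (c.tglueFam M W sf hsf j) := by
    rw [← c.tglueFam_spec M W sf hsf j k, res_res]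
  have e2 : Mod.res M (inf_le_left : W k ⊓ c.U i ⊓ c.U j ≤ W k ⊓ c.U i) ((sf k).1 i) =
      Mod.res M ((inf_le_inf_right (c.U j) (inf_le_inf_right (c.U i) (le_iSup W k))).trans
        inf_le_left) (c.tglueFam M W sf hsf i) := by
    rw [← c.tglueFam_spec M W sf hsf i k, res_res]
  rw [e1, e2] at hk
  exact hk

end Sheaf

theorem isSheaf_tabPresheaf : TopCat.Presheaf.IsSheaf (c.tabPresheaf M) := by
  rw [TopCat.Presheaf.isSheaf_iff_isSheafUniqueGluing]
  intro κ W sf hsf
  have hsf' : ∀ k l, c.tresSec M (inf_le_left : W k ⊓ W l ≤ W k) (sf k) =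
      c.tresSec M (inf_le_right : W k ⊓ W l ≤ W l) (sf l) := fun k l => hsf k l
  refine ⟨⟨c.tglueFam M W sf hsf', c.isTSec_tglueFam M W sf hsf'⟩, ?_, ?_⟩
  · intro k
    apply Subtype.ext
    funext i
    exact c.tglueFam_spec M W sf hsf' i k
  · intro t ht
    apply Subtype.ext
    funext i
    apply eq_of_res_eq M (fun k => W k ⊓ c.U i) ((⨆ k, W k) ⊓ c.U i)
      (fun k => inf_le_inf_right (c.U i) (le_iSup W k)) (c.cover_inf W i)
    intro k
    rw [c.tglueFam_spec M W sf hsf' i k]
    have := congrArg (fun a : c.tsec M (W k) => a.1 i) (ht k)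
    exact this

/-- **the twist of a module by a cocycle** (`= M ⊗ c.toModule`) -/
def twist : X.Modules where
  val := c.tpresheafOfModules M
  isSheaf := c.isSheaf_tabPresheaf M

theorem twist_presheaf : (c.twist M).presheaf = c.tabPresheaf M := rfl

/-- sections of the twist are compatible families -/
def ofTSec {V : X.Opens} (a : c.tsec M V) : Γ(c.twist M, V) := a

/-- sections of the twist are compatible families -/
def toTSec {V : X.Opens} (a : Γ(c.twist M, V)) : c.tsec M V := a

theorem res_ofTSec {V V' : X.Opens} (h : V' ≤ V) (a : c.tsec M V) :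
    Mod.res (c.twist M) h (c.ofTSec M a) = c.ofTSec M (c.tresSec M h a) := rfl

theorem smul_ofTSec {V : X.Opens} (r : Γ(X, V)) (a : c.tsec M V) :
    r • c.ofTSec M a = c.ofTSec M (r • a) := rfl

theorem add_ofTSec {V : X.Opens} (a b : c.tsec M V) :
    c.ofTSec M a + c.ofTSec M b = c.ofTSec M (a + b) := rfl

theorem ofTSec_injective {V : X.Opens} : Function.Injective (c.ofTSec M (V := V)) := fun _ _ h => h

theorem ofTSec_surjective {V : X.Opens} : Function.Surjective (c.ofTSec M (V := V)) :=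
  fun a => ⟨a, rfl⟩

end Cocycle

end Fermat.Agent.S25lib.Mod
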