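/-
S25lib / Mod / TwistGen  (helper7)  --  Project L (S25): generators of the twist.
* `tmul a s`: the product of a section `a` of `c.toModule` and a section `s` of `M`, a section of `c.twist M`;
* `tgen k s := tmul (gen k) s` over `W ⊓ U k` for `s ∈ Γ(M, W)`; `isGen_tgen`: it generates if `s` does;
* `res_tgen`: the transition functions of the `tgen` are the products of those of `M` and of `c`;
* `LocGen.twist`.
-/
import Fermat.Agent.S25lib.Mod.TwistSheaf

set_option autoImplicit false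

noncomputable section

universe u

open AlgebraicGeometry CategoryTheory TopologicalSpace

namespace Fermat.Agent.S25lib.Mod

namespace Cocycle

variable {X : Scheme.{u}} {ι : Type u} (c : Cocycle X ι) (M : X.Modules)

/-- the product of a section of `c.toModule` and a section of `M`, as a family -/
def tmulFam {V : X.Opens} (a : ∀ i, Γ(X, V ⊓ c.U i)) (s : Γ(M, V)) : ∀ i, Γ(M, V ⊓ c.U i) :=
  fun i => a i • Mod.res M (inf_le_left : V ⊓ c.U i ≤ V) s

theorem isTSec_tmulFam {V : X.Opens} {a : ∀ i, Γ(X, V ⊓ c.U i)} (ha : c.IsSec V a) (s : Γ(M, V)) :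
    c.IsTSec M V (c.tmulFam M a s) := by
  intro i j
  unfold tmulFam
  rw [res_smul, res_smul, res_res, res_res, ha i j, smul_smul, mul_comm]

/-- **the product of a section of `c.toModule` and a section of `M`** -/
def tmul {V : X.Opens} (a : c.sec V) (s : Γ(M, V)) : Γ(c.twist M, V) :=
  c.ofTSec M ⟨c.tmulFam M a.1 s, c.isTSec_tmulFam M a.2 s⟩

theorem tmul_val {V : X.Opens} (a : c.sec V) (s : Γ(M, V)) (i : ι) :
    (c.toTSec M (c.tmul M a s)).1 i = a.1 i • Mod.res M (inf_le_left : V ⊓ c.U i ≤ V) s := rfl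

theorem res_tmul {V V' : X.Opens} (h : V' ≤ V) (a : c.sec V) (s : Γ(M, V)) :
    Mod.res (c.twist M) h (c.tmul M a s) = c.tmul M (c.resSec h a) (Mod.res M h s) := by
  unfold tmul
  rw [res_ofTSec]
  congr 1
  apply Subtype.ext
  funext i
  rw [tresSec_val]
  change Mod.res M _ (a.1 i • Mod.res M _ s) = (c.resSec h a).1 i • Mod.res M _ (Mod.res M h s)
  rw [res_smul, res_res, res_res, resSec_val]

theorem smul_tmul {V : X.Opens} (r : Γ(X, V)) (a : c.sec V) (s : Γ(M, V)) :
    r • c.tmul M a s = c.tmul M a (r • s) := by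
  unfold tmul
  rw [smul_ofTSec]
  congr 1
  apply Subtype.ext
  funext i
  rw [tsmul_val]
  change resO _ r • (a.1 i • Mod.res M _ s) = a.1 i • Mod.res M _ (r • s)
  rw [res_smul, smul_comm]

theorem tmul_smul {V : X.Opens} (r : Γ(X, V)) (a : c.sec V) (s : Γ(M, V)) :
    c.tmul M (r • a) s = r • c.tmul M a s := by
  unfold tmul
  rw [smul_ofTSec]
  congr 1
  apply Subtype.ext
  funext i
  rw [tsmul_val]
  change (r • a).1 i • Mod.res M _ s = resO _ r • (a.1 i • Mod.res M _ s)
  rw [smul_val, mul_smul]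

/-- the generator of the twist over `W ⊓ U k` attached to a section `s` of `M` over `W` -/
def tgen {W : X.Opens} (k : ι) (s : Γ(M, W)) : Γ(c.twist M, W ⊓ c.U k) :=
  c.tmul M (c.resSec (inf_le_right : W ⊓ c.U k ≤ c.U k) (c.genSec k))
    (Mod.res M (inf_le_left : W ⊓ c.U k ≤ W) s)

theorem tgen_val {W : X.Opens} (k : ι) (s : Γ(M, W)) (i : ι) :
    (c.toTSec M (c.tgen M k s)).1 i =
      resO (le_inf (inf_le_left.trans inf_le_right) inf_le_right :
          W ⊓ c.U k ⊓ c.U i ≤ c.U k ⊓ c.U i) (c.u k i) •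
        Mod.res M ((inf_le_left : W ⊓ c.U k ⊓ c.U i ≤ W ⊓ c.U k).trans inf_le_left) s := by
  unfold tgen
  rw [tmul_val, resSec_val, res_res]
  rfl

/-- the components of a multiple of the restriction of `tgen k s` -/
theorem smul_res_tgen_val {W V' : X.Opens} (k : ι) (s : Γ(M, W)) (h : V' ≤ W ⊓ c.U k)
    (r : Γ(X, V')) (i : ι) :
    (c.toTSec M (r • Mod.res (c.twist M) h (c.tgen M k s))).1 i =
      (resO (inf_le_left : V' ⊓ c.U i ≤ V') r *
        resO (le_inf (inf_le_left.trans (h.trans inf_le_right)) inf_le_right :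
          V' ⊓ c.U i ≤ c.U k ⊓ c.U i) (c.u k i)) •
        Mod.res M (inf_le_left.trans (h.trans inf_le_left) : V' ⊓ c.U i ≤ W) s := by
  have h1 : (c.toTSec M (r • Mod.res (c.twist M) h (c.tgen M k s))).1 i =
      resO (inf_le_left : V' ⊓ c.U i ≤ V') r •
        Mod.res M (inf_le_inf_right (c.U i) h) ((c.toTSec M (c.tgen M k s)).1 i) := rfl
  rw [h1, tgen_val, res_smul, res_res, resO_resO, mul_smul]

/-- **`tgen k s` generates the twist over `W ⊓ U k` if `s` generates `M` over `W`** -/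
theorem isGen_tgen {W : X.Opens} (k : ι) {s : Γ(M, W)} (hs : IsGen M W s) :
    IsGen (c.twist M) (W ⊓ c.U k) (c.tgen M k s) := by
  intro V' h
  have hVk : V' ≤ V' ⊓ c.U k := le_inf le_rfl (h.trans inf_le_right)
  have hkW : V' ⊓ c.U k ≤ W := inf_le_left.trans (h.trans inf_le_left)
  have huk : resO (le_inf (inf_le_left.trans (h.trans inf_le_right)) inf_le_right :
      V' ⊓ c.U k ≤ c.U k ⊓ c.U k) (c.u k k) = 1 := by
    rw [c.u_self, resO_one]
  constructor
  · intro r r' hrr'
    have h1 := congrArg (fun t => (c.toTSec M t).1 k) hrr'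
    simp only [smul_res_tgen_val, huk, mul_one] at h1
    have h2 := ((hs.res hkW) (V' ⊓ c.U k) (le_refl _)).1
    have h3 : resO (inf_le_left : V' ⊓ c.U k ≤ V') r = resO (inf_le_left : V' ⊓ c.U k ≤ V') r' := by
      apply h2
      simpa only [res_self] using h1
    have h4 := congrArg (resO hVk) h3
    rwa [resO_resO, resO_resO, resO_self, resO_self] at h4
  · intro t
    set a := c.toTSec M t with ha
    set b := hs.coord hkW (a.1 k) with hb
    have hbs : b • Mod.res M hkW s = a.1 k := hs.coord_smul hkW (a.1 k)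
    refine ⟨resO hVk b, ?_⟩
    apply c.ofTSec_injective M
    apply Subtype.ext
    funext i
    have h1 := c.smul_res_tgen_val M k s h (resO hVk b) i
    change (c.toTSec M (resO hVk b • Mod.res (c.twist M) h (c.tgen M k s))).1 i = a.1 i
    rw [h1]
    -- the cocycle relation of `a` for `(k, i)`, restricted to `V' ⊓ U i`
    have hle : V' ⊓ c.U i ≤ V' ⊓ c.U k ⊓ c.U i :=
      le_inf (le_inf inf_le_left (inf_le_left.trans (h.trans inf_le_right))) inf_le_right
    have h2 := congrArg (Mod.res M hle) (a.2 k i)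
    rw [res_res, res_self, res_smul, res_res, resO_resO, ← hbs, res_smul, res_res] at h2
    rw [h2, smul_smul, resO_resO, mul_comm]

/-- **the transition functions of the generators of the twist** -/
theorem res_tgen {W W' : X.Opens} (k k' : ι) (s : Γ(M, W)) (s' : Γ(M, W')) (ρ : Γ(X, W ⊓ W'))
    (hρ : Mod.res M (inf_le_left : W ⊓ W' ≤ W) s = ρ • Mod.res M (inf_le_right : W ⊓ W' ≤ W') s') :
    Mod.res (c.twist M) (inf_le_left : (W ⊓ c.U k) ⊓ (W' ⊓ c.U k') ≤ W ⊓ c.U k) (c.tgen M k s) =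
      (resO (le_inf (inf_le_left.trans inf_le_left) (inf_le_right.trans inf_le_left) :
          (W ⊓ c.U k) ⊓ (W' ⊓ c.U k') ≤ W ⊓ W') ρ *
        resO (le_inf (inf_le_left.trans inf_le_right) (inf_le_right.trans inf_le_right) :
          (W ⊓ c.U k) ⊓ (W' ⊓ c.U k') ≤ c.U k ⊓ c.U k') (c.u k k')) •
      Mod.res (c.twist M) (inf_le_right : (W ⊓ c.U k) ⊓ (W' ⊓ c.U k') ≤ W' ⊓ c.U k')
        (c.tgen M k' s') := by
  set O := (W ⊓ c.U k) ⊓ (W' ⊓ c.U k') with hO
  have hOW : O ≤ W ⊓ W' := le_inf (inf_le_left.trans inf_le_left) (inf_le_right.trans inf_le_left)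
  have hOU : O ≤ c.U k ⊓ c.U k' :=
    le_inf (inf_le_left.trans inf_le_right) (inf_le_right.trans inf_le_right)
  rw [← one_smul Γ(X, O) (Mod.res (c.twist M) (inf_le_left : O ≤ W ⊓ c.U k) (c.tgen M k s))]
  apply c.ofTSec_injective M
  apply Subtype.ext
  funext i
  change (c.toTSec M ((1 : Γ(X, O)) • Mod.res (c.twist M) inf_le_left (c.tgen M k s))).1 i =
    (c.toTSec M ((resO hOW ρ * resO hOU (c.u k k')) •
      Mod.res (c.twist M) inf_le_right (c.tgen M k' s'))).1 i
  rw [smul_res_tgen_val, smul_res_tgen_val, resO_one, one_mul]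
  -- restrict `hρ` and the cocycle relation to `O ⊓ U i`
  have hiW : O ⊓ c.U i ≤ W ⊓ W' := inf_le_left.trans hOW
  have h1 := congrArg (Mod.res M hiW) hρ
  rw [res_res, res_smul, res_res] at h1
  have hi3 : O ⊓ c.U i ≤ c.U k ⊓ c.U k' ⊓ c.U i :=
    le_inf (inf_le_left.trans hOU) inf_le_right
  have h2 := congrArg (resO hi3) (c.u_mul k k' i)
  rw [resO_mul, resO_resO, resO_resO, resO_resO] at h2
  rw [h1, ← h2, resO_mul, resO_resO, resO_resO, smul_smul]
  congr 1
  ring

end Cocycle

/-- the twist of a module with local generators has local generators -/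
theorem LocGen.twist {X : Scheme.{u}} {ι : Type u} (c : Cocycle X ι) {M : X.Modules}
    (hM : LocGen M) : LocGen (c.twist M) := by
  intro x
  obtain ⟨W, hxW, s, hs⟩ := hM x
  have hx : x ∈ (⨆ i, c.U i : X.Opens) := by rw [c.hU]; trivial
  obtain ⟨k, hk⟩ := Opens.mem_iSup.mp hx
  exact ⟨W ⊓ c.U k, ⟨hxW, hk⟩, c.tgen M k s, c.isGen_tgen M k hs⟩

end Fermat.Agent.S25lib.Mod
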