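/-
S25lib / Mod / TwistMap  (helper7)  --  Project L (S25): the twist by a cocycle is a functor on modules.
`twistMap c φ : c.twist M ⟶ c.twist N` (componentwise), `twistMap_id`, `twistMap_comp`, `twistIso`;
`twistMap_tmul`, `twistMap_tgen`.
-/
import Fermat.Agent.S25lib.Mod.TwistGen

set_option autoImplicit false

noncomputable section

universe u

open AlgebraicGeometry CategoryTheory TopologicalSpace

namespace Fermat.Agent.S25lib.Mod

namespace Cocycle

variable {X : Scheme.{u}} {ι : Type u} (c : Cocycle X ι) {M N P : X.Modules}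

/-- a morphism of modules acts on families -/
def mapFam (φ : M ⟶ N) {V : X.Opens} (m : ∀ i, Γ(M, V ⊓ c.U i)) : ∀ i, Γ(N, V ⊓ c.U i) :=
  fun i => φ.app (V ⊓ c.U i) (m i)

theorem isTSec_mapFam (φ : M ⟶ N) {V : X.Opens} {m : ∀ i, Γ(M, V ⊓ c.U i)}
    (hm : c.IsTSec M V m) : c.IsTSec N V (c.mapFam φ m) := by
  intro i j
  unfold mapFam
  rw [← app_res, ← app_res, hm i j, Scheme.Modules.Hom.app_smul]

/-- a morphism of modules acts on the sections of the twists -/
def mapTSec (φ : M ⟶ N) (V : X.Opens) (a : c.tsec M V) : c.tsec N V :=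
  ⟨c.mapFam φ a.1, c.isTSec_mapFam φ a.2⟩

theorem mapTSec_val (φ : M ⟶ N) (V : X.Opens) (a : c.tsec M V) (i : ι) :
    (c.mapTSec φ V a).1 i = φ.app (V ⊓ c.U i) (a.1 i) := rfl

theorem mapTSec_add (φ : M ⟶ N) (V : X.Opens) (a b : c.tsec M V) :
    c.mapTSec φ V (a + b) = c.mapTSec φ V a + c.mapTSec φ V b := by
  apply Subtype.ext
  funext i
  change φ.app _ (a.1 i + b.1 i) = φ.app _ (a.1 i) + φ.app _ (b.1 i)
  exact map_add _ _ _

theorem mapTSec_smul (φ : M ⟶ N) (V : X.Opens) (r : Γ(X, V)) (a : c.tsec M V) :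
    c.mapTSec φ V (r • a) = r • c.mapTSec φ V a := by
  apply Subtype.ext
  funext i
  rw [mapTSec_val, tsmul_val, tsmul_val, mapTSec_val, Scheme.Modules.Hom.app_smul]

theorem mapTSec_res (φ : M ⟶ N) {V V' : X.Opens} (h : V' ≤ V) (a : c.tsec M V) :
    c.tresSec N h (c.mapTSec φ V a) = c.mapTSec φ V' (c.tresSec M h a) := by
  apply Subtype.ext
  funext i
  rw [tresSec_val, mapTSec_val, mapTSec_val, tresSec_val, app_res]

/-- the twist of a morphism, as a morphism of presheaves of abelian groups -/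
def twistNatTrans (φ : M ⟶ N) : (c.twist M).presheaf ⟶ (c.twist N).presheaf where
  app V := AddCommGrpCat.ofHom
    { toFun := c.mapTSec φ V.unop
      map_zero' := by
        have := c.mapTSec_add φ V.unop 0 0
        rw [add_zero] at this
        exact left_eq_add.mp this
      map_add' := c.mapTSec_add φ V.unop }
  naturality V W f := by
    ext a
    have h : W.unop ≤ V.unop := leOfHom f.unop
    exact (c.mapTSec_res φ h a).symm

/-- **the twist of a morphism** -/
def twistMap (φ : M ⟶ N) : c.twist M ⟶ c.twist N :=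
  ⟨PresheafOfModules.homMk (c.twistNatTrans φ) (fun V r a => c.mapTSec_smul φ V.unop r a)⟩

theorem twistMap_app (φ : M ⟶ N) (V : X.Opens) (a : c.tsec M V) :
    (c.twistMap φ).app V (c.ofTSec M a) = c.ofTSec N (c.mapTSec φ V a) := rfl

theorem twistMap_id : c.twistMap (𝟙 M) = 𝟙 (c.twist M) := by
  apply Scheme.Modules.hom_ext
  intro V
  ext a
  rfl

theorem twistMap_comp (φ : M ⟶ N) (ψ : N ⟶ P) :
    c.twistMap (φ ≫ ψ) = c.twistMap φ ≫ c.twistMap ψ := by
  apply Scheme.Modules.hom_ext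
  intro V
  ext a
  rfl

/-- the twist of an isomorphism -/
def twistIso (e : M ≅ N) : c.twist M ≅ c.twist N where
  hom := c.twistMap e.hom
  inv := c.twistMap e.inv
  hom_inv_id := by rw [← twistMap_comp, e.hom_inv_id, twistMap_id]
  inv_hom_id := by rw [← twistMap_comp, e.inv_hom_id, twistMap_id]

theorem twistMap_tmul (φ : M ⟶ N) {V : X.Opens} (a : c.sec V) (s : Γ(M, V)) :
    (c.twistMap φ).app V (c.tmul M a s) = c.tmul N a (φ.app V s) := by
  unfold tmul
  rw [twistMap_app]
  congr 1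
  apply Subtype.ext
  funext i
  rw [mapTSec_val]
  change φ.app _ (a.1 i • Mod.res M _ s) = a.1 i • Mod.res N _ (φ.app V s)
  rw [Scheme.Modules.Hom.app_smul, app_res]

theorem twistMap_tgen (φ : M ⟶ N) {W : X.Opens} (k : ι) (s : Γ(M, W)) :
    (c.twistMap φ).app (W ⊓ c.U k) (c.tgen M k s) = c.tgen N k (φ.app W s) := by
  unfold tgen
  rw [twistMap_tmul, app_res]

end Cocycle

end Fermat.Agent.S25lib.Mod
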