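/-
S25lib / Mod / TwistInv  (helper7)  --  Project L (S25): the inverse cocycle, and
**`c.inv.twist (c.twist M) ≅ M ≅ c.twist (c.inv.twist M)`** for `M` with local generators.
-/
import Fermat.Agent.S25lib.Mod.TwistMap

set_option autoImplicit false

noncomputable section

universe u

open AlgebraicGeometry CategoryTheory TopologicalSpace

namespace Fermat.Agent.S25lib.Mod

namespace Cocycle

variable {X : Scheme.{u}} {ι : Type u} (c : Cocycle X ι)

/-- `u i j * u j i = 1` -/
theorem u_mul_swap (i j : ι) :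
    c.u i j * resO (le_inf inf_le_right inf_le_left : c.U i ⊓ c.U j ≤ c.U j ⊓ c.U i) (c.u j i) = 1 := by
  have h := c.u_mul i j i
  have hle : c.U i ⊓ c.U j ≤ c.U i ⊓ c.U j ⊓ c.U i := le_inf le_rfl inf_le_left
  have h2 := congrArg (resO hle) h
  rw [resO_mul, resO_resO, resO_resO, resO_resO, c.u_self, resO_one, resO_self] at h2
  exact h2

/-- **the inverse cocycle** -/
def inv : Cocycle X ι where
  U := c.U
  hU := c.hU
  u i j := resO (le_inf inf_le_right inf_le_left : c.U i ⊓ c.U j ≤ c.U j ⊓ c.U i) (c.u j i)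
  u_self i := by
    rw [c.u_self, resO_one]
  u_mul i j k := by
    have h := c.u_mul k j i
    have hle : c.U i ⊓ c.U j ⊓ c.U k ≤ c.U k ⊓ c.U j ⊓ c.U i :=
      le_inf (le_inf inf_le_right (inf_le_left.trans inf_le_right)) (inf_le_left.trans inf_le_left)
    have h2 := congrArg (resO hle) h
    rw [resO_mul, resO_resO, resO_resO, resO_resO] at h2
    rw [resO_resO, resO_resO, resO_resO, mul_comm]
    exact h2

theorem inv_U (i : ι) : c.inv.U i = c.U i := rfl

theorem inv_u (i j : ι) : c.inv.u i j =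
    resO (le_inf inf_le_right inf_le_left : c.U i ⊓ c.U j ≤ c.U j ⊓ c.U i) (c.u j i) := rfl

theorem inv_inv : c.inv.inv = c := by
  cases c with
  | mk U hU u u_self u_mul =>
    simp only [inv]
    congr 1
    funext i j
    exact (resO_resO (X := X) (le_inf inf_le_right inf_le_left : U j ⊓ U i ≤ U i ⊓ U j)
      (le_inf inf_le_right inf_le_left : U i ⊓ U j ≤ U j ⊓ U i) (u i j)).trans (resO_self (u i j))

theorem resO_u_mul_resO_inv_u (i j : ι) {V : X.Opens} (h : V ≤ c.U i ⊓ c.U j) :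
    resO h (c.u i j) * resO (show V ≤ c.inv.U i ⊓ c.inv.U j from h) (c.inv.u i j) = 1 := by
  have h2 := congrArg (resO h) (c.u_mul_swap i j)
  rw [resO_mul, resO_one] at h2
  exact h2

variable {M : X.Modules}

/-- **twisting by `c` and then by `c.inv` gives back the module** -/
theorem exists_iso_inv_twist_twist (hM : LocGen M) :
    ∃ e : c.inv.twist (c.twist M) ≅ M, ∀ (G : GenSys M) (x : X) (k : ι),
      IsGen M ((G.U x ⊓ c.U k) ⊓ c.inv.U k)
        (e.hom.app ((G.U x ⊓ c.U k) ⊓ c.inv.U k)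
          (c.inv.tgen (c.twist M) k (c.tgen M k (G.s x)))) := by
  obtain ⟨G⟩ := hM.nonempty_genSys
  let O : X × ι → X.Opens := fun p => (G.U p.1 ⊓ c.U p.2) ⊓ c.inv.U p.2
  have hcov : ⨆ p, O p = ⊤ := by
    rw [eq_top_iff]
    intro x _
    have hx : x ∈ (⨆ i, c.U i : X.Opens) := by rw [c.hU]; trivial
    obtain ⟨k, hk⟩ := Opens.mem_iSup.mp hx
    exact Opens.mem_iSup.mpr ⟨(x, k), ⟨⟨G.mem x, hk⟩, hk⟩⟩
  have hOU : ∀ p, O p ≤ G.U p.1 := fun p => inf_le_left.trans inf_le_left
  let r : ∀ p q, Γ(X, O p ⊓ O q) := fun p q =>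
    resO (le_inf (inf_le_left.trans (hOU p)) (inf_le_right.trans (hOU q))) (G.trans p.1 q.1)
  refine Exists.elim (nonempty_iso_of_same_trans O hcov
    (fun p => c.inv.tgen (c.twist M) p.2 (c.tgen M p.2 (G.s p.1)))
    (fun p => c.inv.isGen_tgen (c.twist M) p.2 (c.isGen_tgen M p.2 (G.hs p.1)))
    (fun p => Mod.res M (hOU p) (G.s p.1)) (fun p => (G.hs p.1).res (hOU p)) r ?_ ?_)
    (fun e _ => ⟨e, fun G' x k =>
      IsGen.map_iso e (c.inv.isGen_tgen (c.twist M) k (c.isGen_tgen M k (G'.hs x)))⟩)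
  · intro p q
    have h1 := c.inv.res_tgen (c.twist M) p.2 q.2 (c.tgen M p.2 (G.s p.1)) (c.tgen M q.2 (G.s q.1))
      _ (c.res_tgen M p.2 q.2 (G.s p.1) (G.s q.1) (G.trans p.1 q.1) (G.trans_smul p.1 q.1).symm)
    refine h1.trans ?_
    congr 1
    rw [resO_mul, resO_resO, resO_resO, mul_assoc]
    have h2 := c.resO_u_mul_resO_inv_u p.2 q.2 (V := O p ⊓ O q)
      (le_inf (inf_le_left.trans inf_le_right) (inf_le_right.trans inf_le_right))
    rw [h2, mul_one]
  · intro p q
    have h1 := congrArg (Mod.res M (le_inf (inf_le_left.trans (hOU p)) (inf_le_right.trans (hOU q)) :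
      O p ⊓ O q ≤ G.U p.1 ⊓ G.U q.1)) (G.trans_smul p.1 q.1)
    rw [res_smul, res_res, res_res] at h1
    rw [res_res, res_res]
    exact h1.symm

/-- `M ≅ c.inv.twist (c.twist M)` -/
theorem nonempty_iso_inv_twist_twist (hM : LocGen M) : Nonempty (c.inv.twist (c.twist M) ≅ M) := by
  obtain ⟨e, -⟩ := c.exists_iso_inv_twist_twist hM
  exact ⟨e⟩

/-- `M ≅ c.twist (c.inv.twist M)` -/
theorem nonempty_iso_twist_inv_twist (hM : LocGen M) : Nonempty (c.twist (c.inv.twist M) ≅ M) := by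
  have h := c.inv.nonempty_iso_inv_twist_twist hM
  rwa [c.inv_inv] at h

end Cocycle

end Fermat.Agent.S25lib.Mod
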