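/-
S25lib / Mod / TwistPull  (helper7)  --  Project L (S25): **the twist commutes with pullback**:
`f^*(c.twist M) ≅ (c.pull f).twist (f^* M)` for `M` with local generators.
-/
import Fermat.Agent.S25lib.Mod.TwistInv

set_option autoImplicit false

noncomputable section

universe u

open AlgebraicGeometry CategoryTheory TopologicalSpace

namespace Fermat.Agent.S25lib.Mod

namespace Cocycle

variable {X Y : Scheme.{u}} {ι : Type u} (f : Y ⟶ X) (c : Cocycle X ι) {M : X.Modules}

/-- the pullback of the inverse cocycle is the inverse of the pullback -/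
theorem pull_inv : c.inv.pull f = (c.pull f).inv := by
  cases c with
  | mk U hU u u_self u_mul =>
    simp only [pull, inv]
    congr 1
    funext i j
    exact app_resO f _ (u j i)

/-- pulling back twice -/
theorem pull_pull {Z : Scheme.{u}} (g : Z ⟶ Y) : (c.pull f).pull g = c.pull (g ≫ f) := rfl

theorem pull_congr {f g : Y ⟶ X} (h : f = g) : c.pull f = c.pull g := by rw [h]

/-- **the twist commutes with pullback** -/
theorem nonempty_pullback_twist_iso (hM : LocGen M) :
    Nonempty ((Scheme.Modules.pullback f).obj (c.twist M) ≅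
      (c.pull f).twist ((Scheme.Modules.pullback f).obj M)) := by
  obtain ⟨G⟩ := hM.nonempty_genSys
  let O : Y × ι → Y.Opens := fun p => f ⁻¹ᵁ (G.U (f p.1)) ⊓ (c.pull f).U p.2
  have hcov : ⨆ p, O p = ⊤ := by
    rw [eq_top_iff]
    intro y _
    have hy : f y ∈ (⨆ i, c.U i : X.Opens) := by rw [c.hU]; trivial
    obtain ⟨k, hk⟩ := Opens.mem_iSup.mp hy
    exact Opens.mem_iSup.mpr ⟨(y, k), ⟨G.mem (f y), hk⟩⟩
  let r : ∀ p q, Γ(Y, O p ⊓ O q) := fun p q =>
    f.app ((G.U (f p.1) ⊓ c.U p.2) ⊓ (G.U (f q.1) ⊓ c.U q.2))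
      (resO (le_inf (inf_le_left.trans inf_le_left) (inf_le_right.trans inf_le_left))
          (G.trans (f p.1) (f q.1)) *
        resO (le_inf (inf_le_left.trans inf_le_right) (inf_le_right.trans inf_le_right))
          (c.u p.2 q.2))
  refine Exists.elim (nonempty_iso_of_same_trans O hcov
    (fun p => pullSec f (c.twist M) (G.U (f p.1) ⊓ c.U p.2) (c.tgen M p.2 (G.s (f p.1))))
    (fun p => isGen_pullSec f (c.isGen_tgen M p.2 (G.hs (f p.1))))
    (fun p => (c.pull f).tgen ((Scheme.Modules.pullback f).obj M) p.2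
      (pullSec f M (G.U (f p.1)) (G.s (f p.1))))
    (fun p => (c.pull f).isGen_tgen _ p.2 (isGen_pullSec f (G.hs (f p.1)))) r ?_ ?_)
    (fun e _ => ⟨e⟩)
  · intro p q
    have h := congrArg (pullSec f (c.twist M) _)
      (c.res_tgen M p.2 q.2 (G.s (f p.1)) (G.s (f q.1)) (G.trans (f p.1) (f q.1))
        (G.trans_smul (f p.1) (f q.1)).symm)
    rw [pullSec_smul, pullSec_res', pullSec_res'] at h
    exact h
  · intro p q
    have hρ := congrArg (pullSec f M _) (G.trans_smul (f p.1) (f q.1)).symm
    rw [pullSec_smul, pullSec_res', pullSec_res'] at hρ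
    have h := (c.pull f).res_tgen ((Scheme.Modules.pullback f).obj M) p.2 q.2
      (pullSec f M (G.U (f p.1)) (G.s (f p.1))) (pullSec f M (G.U (f q.1)) (G.s (f q.1)))
      (f.app _ (G.trans (f p.1) (f q.1))) hρ
    refine h.trans ?_
    congr 1
    have hr : r p q =
        resO (preimage_mono f (le_inf (inf_le_left.trans inf_le_left)
            (inf_le_right.trans inf_le_left)))
          (f.app (G.U (f p.1) ⊓ G.U (f q.1)) (G.trans (f p.1) (f q.1))) *
        resO (preimage_mono f (le_inf (inf_le_left.trans inf_le_right)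
            (inf_le_right.trans inf_le_right)))
          (f.app (c.U p.2 ⊓ c.U q.2) (c.u p.2 q.2)) := by
      show f.app _ (_ * _) = _
      rw [map_mul, app_resO, app_resO]
      rfl
    rw [hr]
    rfl

end Cocycle

end Fermat.Agent.S25lib.Mod
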