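/-
S25lib / Mod / TwistTriv  (helper7)  --  Project L (S25): the twist is trivial where the cocycle is.
* `tmulGen_bijective`: for `V ≤ U k`, `s ↦ tmul (gen k|_V) s : Γ(M, V) → Γ(c.twist M, V)` is bijective
  (`Γ(X,V)`-linear by `smul_tmul`, compatible with restriction by `res_tmul`);
* `nonempty_twist_iso_of_top`: if some `U k₀ = ⊤` then `c.twist M ≅ M`.
-/
import Fermat.Agent.S25lib.Mod.TwistPull

set_option autoImplicit false

noncomputable section

universe u

open AlgebraicGeometry CategoryTheory TopologicalSpace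

namespace Fermat.Agent.S25lib.Mod

namespace Cocycle

variable {X : Scheme.{u}} {ι : Type u} (c : Cocycle X ι) (M : X.Modules)

/-- the map `Γ(M, V) → Γ(c.twist M, V)`, `s ↦ gen k ⊗ s`, for `V ≤ U k` -/
def tmulGen (k : ι) {V : X.Opens} (h : V ≤ c.U k) (s : Γ(M, V)) : Γ(c.twist M, V) :=
  c.tmul M (c.resSec h (c.genSec k)) s

theorem tmulGen_val (k : ι) {V : X.Opens} (h : V ≤ c.U k) (s : Γ(M, V)) (i : ι) :
    (c.toTSec M (c.tmulGen M k h s)).1 i =
      resO (le_inf (inf_le_left.trans h) inf_le_right : V ⊓ c.U i ≤ c.U k ⊓ c.U i) (c.u k i) •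
        Mod.res M (inf_le_left : V ⊓ c.U i ≤ V) s := by
  unfold tmulGen
  rw [tmul_val, resSec_val]
  rfl

theorem tmulGen_smul (k : ι) {V : X.Opens} (h : V ≤ c.U k) (r : Γ(X, V)) (s : Γ(M, V)) :
    c.tmulGen M k h (r • s) = r • c.tmulGen M k h s :=
  (c.smul_tmul M r _ s).symm

theorem tmulGen_add (k : ι) {V : X.Opens} (h : V ≤ c.U k) (s s' : Γ(M, V)) :
    c.tmulGen M k h (s + s') = c.tmulGen M k h s + c.tmulGen M k h s' := by
  apply c.ofTSec_injective M
  apply Subtype.ext
  funext i
  change (c.toTSec M (c.tmulGen M k h (s + s'))).1 i =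
    (c.toTSec M (c.tmulGen M k h s)).1 i + (c.toTSec M (c.tmulGen M k h s')).1 i
  rw [tmulGen_val, tmulGen_val, tmulGen_val, res_add, smul_add]

theorem res_tmulGen (k : ι) {V V' : X.Opens} (h : V ≤ c.U k) (h' : V' ≤ V) (s : Γ(M, V)) :
    Mod.res (c.twist M) h' (c.tmulGen M k h s) = c.tmulGen M k (h'.trans h) (Mod.res M h' s) := by
  unfold tmulGen
  rw [res_tmul, resSec_resSec]

/-- **over an open inside `U k` the twist has the sections of `M`** -/
theorem tmulGen_bijective (k : ι) {V : X.Opens} (h : V ≤ c.U k) :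
    Function.Bijective (c.tmulGen M k h) := by
  have hVk : V ≤ V ⊓ c.U k := le_inf le_rfl h
  have huk : resO (le_inf (inf_le_left.trans h) inf_le_right : V ⊓ c.U k ≤ c.U k ⊓ c.U k)
      (c.u k k) = 1 := by
    rw [c.u_self, resO_one]
  constructor
  · intro s s' hss'
    have h1 := congrArg (fun t => (c.toTSec M t).1 k) hss'
    simp only [tmulGen_val, huk, one_smul] at h1
    have h2 := congrArg (Mod.res M hVk) h1
    rwa [res_res, res_res, res_self, res_self] at h2
  · intro t
    set a := c.toTSec M t with ha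
    refine ⟨Mod.res M hVk (a.1 k), ?_⟩
    apply c.ofTSec_injective M
    apply Subtype.ext
    funext i
    change (c.toTSec M (c.tmulGen M k h (Mod.res M hVk (a.1 k)))).1 i = a.1 i
    rw [tmulGen_val, res_res]
    have hle : V ⊓ c.U i ≤ V ⊓ c.U k ⊓ c.U i :=
      le_inf (le_inf inf_le_left (inf_le_left.trans h)) inf_le_right
    have h2 := congrArg (Mod.res M hle) (a.2 k i)
    rw [res_res, res_self, res_smul, res_res, resO_resO] at h2
    rw [h2]

variable {M}

/-- **if the cocycle has an index with `U k₀ = ⊤` then the twist is isomorphic to the module** -/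
theorem nonempty_twist_iso_of_top (hM : LocGen M) (k₀ : ι) (hk : c.U k₀ = ⊤) :
    Nonempty (c.twist M ≅ M) := by
  obtain ⟨G⟩ := hM.nonempty_genSys
  let O : X → X.Opens := fun x => G.U x ⊓ c.U k₀
  have hcov : ⨆ x, O x = ⊤ := by
    rw [eq_top_iff]
    intro x _
    exact Opens.mem_iSup.mpr ⟨x, ⟨G.mem x, by rw [hk]; trivial⟩⟩
  let r : ∀ x y, Γ(X, O x ⊓ O y) := fun x y =>
    resO (le_inf (inf_le_left.trans inf_le_left) (inf_le_right.trans inf_le_left)) (G.trans x y)
  refine Exists.elim (nonempty_iso_of_same_trans O hcov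
    (fun x => c.tgen M k₀ (G.s x)) (fun x => c.isGen_tgen M k₀ (G.hs x))
    (fun x => Mod.res M (inf_le_left : O x ≤ G.U x) (G.s x))
    (fun x => (G.hs x).res inf_le_left) r ?_ ?_) (fun e _ => ⟨e⟩)
  · intro x y
    have h1 := c.res_tgen M k₀ k₀ (G.s x) (G.s y) (G.trans x y) (G.trans_smul x y).symm
    refine h1.trans ?_
    congr 1
    rw [c.u_self, resO_one, mul_one]
  · intro x y
    have h1 := congrArg (Mod.res M (le_inf (inf_le_left.trans inf_le_left)
      (inf_le_right.trans inf_le_left) : O x ⊓ O y ≤ G.U x ⊓ G.U y)) (G.trans_smul x y)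
    rw [res_smul, res_res, res_res] at h1
    rw [res_res, res_res]
    exact h1.symm

end Cocycle

end Fermat.Agent.S25lib.Mod
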