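/-
S25lib / Mod / TwoOpen  (helper7)  --  Project L (S25): the cocycle on a cover by two opens defined by a unit on
the intersection.  `Cocycle.ofUnit U₁ U₂ h v w hvw` has `U ⟨false⟩ = U₁`, `U ⟨true⟩ = U₂`, `u ⟨false⟩ ⟨true⟩ = v`
(so `gen ⟨false⟩ = v • gen ⟨true⟩` on `U₁ ⊓ U₂`).
-/
import Fermat.Agent.S25lib.Mod.TwistTriv

set_option autoImplicit false

noncomputable section

universe u

open AlgebraicGeometry CategoryTheory TopologicalSpace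

namespace Fermat.Agent.S25lib.Mod

namespace Cocycle

variable {X : Scheme.{u}} (U₁ U₂ : X.Opens)

/-- the two opens -/
def twoU : ULift.{u} Bool → X.Opens
  | ⟨false⟩ => U₁
  | ⟨true⟩ => U₂

variable {U₁ U₂}

/-- the transition functions -/
def twoFn (v w : Γ(X, U₁ ⊓ U₂)) : ∀ i j : ULift.{u} Bool, Γ(X, twoU U₁ U₂ i ⊓ twoU U₁ U₂ j)
  | ⟨false⟩, ⟨false⟩ => 1
  | ⟨false⟩, ⟨true⟩ => v
  | ⟨true⟩, ⟨false⟩ => resO (le_inf inf_le_right inf_le_left : U₂ ⊓ U₁ ≤ U₁ ⊓ U₂) w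
  | ⟨true⟩, ⟨true⟩ => 1

theorem twoFn_ff (v w : Γ(X, U₁ ⊓ U₂)) : twoFn v w ⟨false⟩ ⟨false⟩ = 1 := rfl

theorem twoFn_tt (v w : Γ(X, U₁ ⊓ U₂)) : twoFn v w ⟨true⟩ ⟨true⟩ = 1 := rfl

theorem twoFn_ft_mul (v w : Γ(X, U₁ ⊓ U₂)) (hvw : v * w = 1) :
    twoFn v w ⟨false⟩ ⟨true⟩ *
      resO (le_inf inf_le_right inf_le_left :
        twoU U₁ U₂ ⟨false⟩ ⊓ twoU U₁ U₂ ⟨true⟩ ≤ twoU U₁ U₂ ⟨true⟩ ⊓ twoU U₁ U₂ ⟨false⟩)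
        (twoFn v w ⟨true⟩ ⟨false⟩) = 1 := by
  show v * resO (le_inf inf_le_right inf_le_left : U₁ ⊓ U₂ ≤ U₂ ⊓ U₁)
    (resO (le_inf inf_le_right inf_le_left : U₂ ⊓ U₁ ≤ U₁ ⊓ U₂) w) = 1
  rw [resO_resO, resO_self, hvw]

theorem twoFn_tf_mul (v w : Γ(X, U₁ ⊓ U₂)) (hvw : v * w = 1) :
    twoFn v w ⟨true⟩ ⟨false⟩ *
      resO (le_inf inf_le_right inf_le_left :
        twoU U₁ U₂ ⟨true⟩ ⊓ twoU U₁ U₂ ⟨false⟩ ≤ twoU U₁ U₂ ⟨false⟩ ⊓ twoU U₁ U₂ ⟨true⟩)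
        (twoFn v w ⟨false⟩ ⟨true⟩) = 1 := by
  show resO (le_inf inf_le_right inf_le_left : U₂ ⊓ U₁ ≤ U₁ ⊓ U₂) w *
    resO (le_inf inf_le_right inf_le_left : U₂ ⊓ U₁ ≤ U₁ ⊓ U₂) v = 1
  rw [← resO_mul, mul_comm, hvw, resO_one]

/-- **the cocycle of a unit on the intersection of two opens covering `X`** -/
def ofUnit (h : U₁ ⊔ U₂ = ⊤) (v w : Γ(X, U₁ ⊓ U₂)) (hvw : v * w = 1) :
    Cocycle X (ULift.{u} Bool) where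
  U := twoU U₁ U₂
  hU := by
    rw [eq_top_iff, ← h]
    apply sup_le
    · exact le_iSup (twoU U₁ U₂) ⟨false⟩
    · exact le_iSup (twoU U₁ U₂) ⟨true⟩
  u := twoFn v w
  u_self := by
    rintro ⟨_ | _⟩ <;> rfl
  u_mul := by
    rintro ⟨_ | _⟩ ⟨_ | _⟩ ⟨_ | _⟩
    · rw [twoFn_ff, resO_one, mul_one]
    · rw [twoFn_ff, resO_one, one_mul]
    · have h1 := congrArg (resO (le_inf (inf_le_left.trans inf_le_left)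
        (inf_le_left.trans inf_le_right) : twoU U₁ U₂ ⟨false⟩ ⊓ twoU U₁ U₂ ⟨true⟩ ⊓ twoU U₁ U₂ ⟨false⟩ ≤
          twoU U₁ U₂ ⟨false⟩ ⊓ twoU U₁ U₂ ⟨true⟩)) (twoFn_ft_mul v w hvw)
      rw [resO_mul, resO_resO, resO_one] at h1
      rw [twoFn_ff, resO_one]
      exact h1
    · rw [twoFn_tt, resO_one, mul_one]
    · rw [twoFn_ff, resO_one, mul_one]
    · have h1 := congrArg (resO (le_inf (inf_le_left.trans inf_le_left)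
        (inf_le_left.trans inf_le_right) : twoU U₁ U₂ ⟨true⟩ ⊓ twoU U₁ U₂ ⟨false⟩ ⊓ twoU U₁ U₂ ⟨true⟩ ≤
          twoU U₁ U₂ ⟨true⟩ ⊓ twoU U₁ U₂ ⟨false⟩)) (twoFn_tf_mul v w hvw)
      rw [resO_mul, resO_resO, resO_one] at h1
      rw [twoFn_tt, resO_one]
      exact h1
    · rw [twoFn_tt, resO_one, one_mul]
    · rw [twoFn_tt, resO_one, mul_one]

theorem ofUnit_U_false (h : U₁ ⊔ U₂ = ⊤) (v w : Γ(X, U₁ ⊓ U₂)) (hvw : v * w = 1) :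
    (ofUnit h v w hvw).U ⟨false⟩ = U₁ := rfl

theorem ofUnit_U_true (h : U₁ ⊔ U₂ = ⊤) (v w : Γ(X, U₁ ⊓ U₂)) (hvw : v * w = 1) :
    (ofUnit h v w hvw).U ⟨true⟩ = U₂ := rfl

theorem ofUnit_u_false_true (h : U₁ ⊔ U₂ = ⊤) (v w : Γ(X, U₁ ⊓ U₂)) (hvw : v * w = 1) :
    (ofUnit h v w hvw).u ⟨false⟩ ⟨true⟩ = v := rfl

end Cocycle

end Fermat.Agent.S25lib.Mod
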