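/-
S25lib / Mod / TwistUnit  (helper7)  --  Project L (S25): twisting by a cocycle with trivial module.
* `isGen_tmul`: over `V ≤ U k`, the product of a generator of `c.toModule` and a generator of `M` generates
  `c.twist M`;
* (T1a) `nonempty_twist_iso_of_isGen_top` / `nonempty_twist_iso_of_toModule_iso`: if `c.toModule ≅ unit` then
  `c.twist M ≅ M`, and `c.inv.twist M ≅ M`;
* (T1) `nonempty_twist_iso_twist_of_iso`: `c.toModule ≅ c'.toModule → c.twist M ≅ c'.twist M`;
* (T1b) `nonempty_toModule_iso_twist_unit`: `c.toModule ≅ c.twist unit`;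
* (T1c) `nonempty_inv_twist_toModule_iso`: `c.inv.twist c.toModule ≅ unit`.
-/
import Fermat.Agent.S25lib.Mod.TwistTriv

set_option autoImplicit false

noncomputable section

universe u

open AlgebraicGeometry CategoryTheory TopologicalSpace

namespace Fermat.Agent.S25lib.Mod

variable {X : Scheme.{u}}

/-- two generators over the same open differ by a unit -/
theorem IsGen.isUnit_coord {M : X.Modules} {U : X.Opens} {s s' : Γ(M, U)} (hs : IsGen M U s)
    (hs' : IsGen M U s') : IsUnit (hs.coord le_rfl s') := by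
  have h1 := hs.coord_smul le_rfl s'
  have h2 := hs'.coord_smul le_rfl s
  rw [res_self] at h1 h2
  refine IsUnit.of_mul_eq_one (hs'.coord le_rfl s) ?_
  apply (hs U le_rfl).1
  show (hs.coord le_rfl s' * hs'.coord le_rfl s) • Mod.res M le_rfl s = (1 : Γ(X, U)) • Mod.res M le_rfl s
  rw [res_self, one_smul, mul_comm, mul_smul, h1, h2]

namespace Cocycle

variable {ι : Type u} (c : Cocycle X ι) (M : X.Modules)

/-- the product of generators is a generator, over an open inside some `U k` -/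
theorem isGen_tmul (k : ι) {V : X.Opens} (h : V ≤ c.U k) {a : c.sec V}
    (ha : IsGen c.toModule V (c.ofSec a)) {s : Γ(M, V)} (hs : IsGen M V s) :
    IsGen (c.twist M) V (c.tmul M a s) := by
  have hg : IsGen c.toModule V (Mod.res c.toModule h (c.gen k)) := (c.isGen_gen k).res h
  set α := hg.coord le_rfl (c.ofSec a) with hα
  have hαu : IsUnit α := hg.isUnit_coord ha
  have hαa : c.ofSec a = α • Mod.res c.toModule h (c.gen k) := by
    have := hg.coord_smul le_rfl (c.ofSec a)
    rw [res_self] at this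
    exact this.symm
  have hαa' : a = α • c.resSec h (c.genSec k) := by
    apply c.ofSec_injective
    rw [hαa, ← smul_ofSec]
    rfl
  intro V' h'
  have hrew : ∀ r : Γ(X, V'), r • Mod.res (c.twist M) h' (c.tmul M a s) =
      c.tmulGen M k (h'.trans h) ((r * resO h' α) • Mod.res M h' s) := by
    intro r
    rw [res_tmul, hαa', resSec_smul, tmul_smul, resSec_resSec, smul_smul]
    exact (c.tmulGen_smul M k (h'.trans h) _ _).symm
  have hfun : (fun r : Γ(X, V') => r • Mod.res (c.twist M) h' (c.tmul M a s)) =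
      (c.tmulGen M k (h'.trans h)) ∘ (fun r' : Γ(X, V') => r' • Mod.res M h' s) ∘
        (fun r : Γ(X, V') => r * resO h' α) := by
    funext r
    exact hrew r
  rw [hfun]
  have hu' : IsUnit (resO h' α) := hαu.map (X.presheaf.map (homOfLE h').op).hom
  refine (c.tmulGen_bijective M k (h'.trans h)).comp ((hs V' h').comp ?_)
  obtain ⟨u, hu⟩ := hu'
  rw [← hu]
  exact (Units.mulRight_bijective u)

variable {M}

/-- **(T1a)**: if `c.toModule` has a global generator then the twist by `c` is isomorphic to the module -/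
theorem nonempty_twist_iso_of_isGen_top (hM : LocGen M) (σ : Γ(c.toModule, ⊤))
    (hσ : IsGen c.toModule ⊤ σ) : Nonempty (c.twist M ≅ M) := by
  classical
  obtain ⟨G⟩ := hM.nonempty_genSys
  have hxk : ∀ x : X, ∃ k, x ∈ c.U k := by
    intro x
    have hx : x ∈ (⨆ i, c.U i : X.Opens) := by rw [c.hU]; trivial
    exact Opens.mem_iSup.mp hx
  choose κ hκ using hxk
  let O : X → X.Opens := fun x => G.U x ⊓ c.U (κ x)
  have hcov : ⨆ x, O x = ⊤ := by
    rw [eq_top_iff]
    intro x _
    exact Opens.mem_iSup.mpr ⟨x, ⟨G.mem x, hκ x⟩⟩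
  let a : ∀ x, c.sec (O x) := fun x => c.resSec le_top (c.toSec σ)
  have ha : ∀ x, IsGen c.toModule (O x) (c.ofSec (a x)) := fun x => hσ.res le_top
  let s : ∀ x, Γ(M, O x) := fun x => Mod.res M (inf_le_left : O x ≤ G.U x) (G.s x)
  have hs : ∀ x, IsGen M (O x) (s x) := fun x => (G.hs x).res inf_le_left
  let r : ∀ x y, Γ(X, O x ⊓ O y) := fun x y =>
    resO (le_inf (inf_le_left.trans inf_le_left) (inf_le_right.trans inf_le_left)) (G.trans x y)
  have hr' : ∀ x y, Mod.res M (inf_le_left : O x ⊓ O y ≤ O x) (s x) =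
      r x y • Mod.res M (inf_le_right : O x ⊓ O y ≤ O y) (s y) := by
    intro x y
    have h1 := congrArg (Mod.res M (le_inf (inf_le_left.trans inf_le_left)
      (inf_le_right.trans inf_le_left) : O x ⊓ O y ≤ G.U x ⊓ G.U y)) (G.trans_smul x y)
    rw [res_smul, res_res, res_res] at h1
    show Mod.res M _ (Mod.res M _ (G.s x)) = _ • Mod.res M _ (Mod.res M _ (G.s y))
    rw [res_res, res_res]
    exact h1.symm
  refine Exists.elim (nonempty_iso_of_same_trans O hcov
    (fun x => c.tmul M (a x) (s x))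
    (fun x => c.isGen_tmul M (κ x) inf_le_right (ha x) (hs x))
    s hs r ?_ hr') (fun e _ => ⟨e⟩)
  intro x y
  rw [res_tmul, res_tmul, hr' x y, ← smul_tmul]
  congr 2
  show c.resSec _ (c.resSec _ (c.toSec σ)) = c.resSec _ (c.resSec _ (c.toSec σ))
  rw [resSec_resSec, resSec_resSec]

/-- (T1a), from an isomorphism -/
theorem nonempty_twist_iso_of_toModule_iso (hM : LocGen M) (e : c.toModule ≅ unitM X) :
    Nonempty (c.twist M ≅ M) :=
  c.nonempty_twist_iso_of_isGen_top hM _ (isGen_top_of_iso e)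

/-- (T1a) for the inverse cocycle -/
theorem nonempty_inv_twist_iso_of_toModule_iso (hM : LocGen M) (e : c.toModule ≅ unitM X) :
    Nonempty (c.inv.twist M ≅ M) := by
  obtain ⟨e1⟩ := c.nonempty_twist_iso_of_toModule_iso (LocGen.twist c.inv hM) e
  obtain ⟨e2⟩ := c.nonempty_iso_twist_inv_twist hM
  exact ⟨e1.symm ≪≫ e2⟩

/-- **(T1)**: cocycles with isomorphic modules give isomorphic twists -/
theorem nonempty_twist_iso_twist_of_iso {ι' : Type u} (c' : Cocycle X ι') (hM : LocGen M)
    (φ : c.toModule ≅ c'.toModule) : Nonempty (c.twist M ≅ c'.twist M) := by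
  classical
  obtain ⟨G⟩ := hM.nonempty_genSys
  have hxk : ∀ x : X, ∃ k, x ∈ c.U k := by
    intro x
    have hx : x ∈ (⨆ i, c.U i : X.Opens) := by rw [c.hU]; trivial
    exact Opens.mem_iSup.mp hx
  have hxk' : ∀ x : X, ∃ k, x ∈ c'.U k := by
    intro x
    have hx : x ∈ (⨆ i, c'.U i : X.Opens) := by rw [c'.hU]; trivial
    exact Opens.mem_iSup.mp hx
  choose κ hκ using hxk
  choose κ' hκ' using hxk'
  let O : X → X.Opens := fun x => G.U x ⊓ c.U (κ x) ⊓ c'.U (κ' x)
  have hOG : ∀ x, O x ≤ G.U x := fun x => inf_le_left.trans inf_le_left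
  have hOc : ∀ x, O x ≤ c.U (κ x) := fun x => inf_le_left.trans inf_le_right
  have hOc' : ∀ x, O x ≤ c'.U (κ' x) := fun x => inf_le_right
  have hcov : ⨆ x, O x = ⊤ := by
    rw [eq_top_iff]
    intro x _
    exact Opens.mem_iSup.mpr ⟨x, ⟨⟨G.mem x, hκ x⟩, hκ' x⟩⟩
  -- the generators of `c.toModule` and their images
  let γ : ∀ x, Γ(c.toModule, O x) := fun x => Mod.res c.toModule (hOc x) (c.gen (κ x))
  have hγ : ∀ x, IsGen c.toModule (O x) (γ x) := fun x => (c.isGen_gen (κ x)).res (hOc x)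
  let γ' : ∀ x, Γ(c'.toModule, O x) := fun x => φ.hom.app (O x) (γ x)
  have hγ' : ∀ x, IsGen c'.toModule (O x) (γ' x) := fun x => (hγ x).map_iso φ
  let s : ∀ x, Γ(M, O x) := fun x => Mod.res M (hOG x) (G.s x)
  have hs : ∀ x, IsGen M (O x) (s x) := fun x => (G.hs x).res (hOG x)
  let ρ : ∀ x y, Γ(X, O x ⊓ O y) := fun x y =>
    resO (le_inf (inf_le_left.trans (hOG x)) (inf_le_right.trans (hOG y))) (G.trans x y)
  let w : ∀ x y, Γ(X, O x ⊓ O y) := fun x y =>
    resO (le_inf (inf_le_left.trans (hOc x)) (inf_le_right.trans (hOc y))) (c.u (κ x) (κ y))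
  have hρ : ∀ x y, Mod.res M (inf_le_left : O x ⊓ O y ≤ O x) (s x) =
      ρ x y • Mod.res M (inf_le_right : O x ⊓ O y ≤ O y) (s y) := by
    intro x y
    have h1 := congrArg (Mod.res M (le_inf (inf_le_left.trans (hOG x))
      (inf_le_right.trans (hOG y)) : O x ⊓ O y ≤ G.U x ⊓ G.U y)) (G.trans_smul x y)
    rw [res_smul, res_res, res_res] at h1
    show Mod.res M _ (Mod.res M _ (G.s x)) = _ • Mod.res M _ (Mod.res M _ (G.s y))
    rw [res_res, res_res]
    exact h1.symm
  have hw : ∀ x y, Mod.res c.toModule (inf_le_left : O x ⊓ O y ≤ O x) (γ x) =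
      w x y • Mod.res c.toModule (inf_le_right : O x ⊓ O y ≤ O y) (γ y) := by
    intro x y
    have h1 := congrArg (Mod.res c.toModule (le_inf (inf_le_left.trans (hOc x))
      (inf_le_right.trans (hOc y)) : O x ⊓ O y ≤ c.U (κ x) ⊓ c.U (κ y))) (c.res_gen (κ x) (κ y))
    rw [res_smul, res_res, res_res] at h1
    show Mod.res c.toModule _ (Mod.res c.toModule _ (c.gen (κ x))) =
      _ • Mod.res c.toModule _ (Mod.res c.toModule _ (c.gen (κ y)))
    rw [res_res, res_res]
    exact h1
  have hw' : ∀ x y, Mod.res c'.toModule (inf_le_left : O x ⊓ O y ≤ O x) (γ' x) =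
      w x y • Mod.res c'.toModule (inf_le_right : O x ⊓ O y ≤ O y) (γ' y) := by
    intro x y
    show Mod.res c'.toModule _ (φ.hom.app (O x) (γ x)) =
      _ • Mod.res c'.toModule _ (φ.hom.app (O y) (γ y))
    rw [← app_res, ← app_res, hw x y, Scheme.Modules.Hom.app_smul]
  -- the general transition computation
  have key : ∀ {κ₀ : Type u} (d : Cocycle X κ₀) (g : ∀ x, Γ(d.toModule, O x))
      (_ : ∀ x y, Mod.res d.toModule (inf_le_left : O x ⊓ O y ≤ O x) (g x) =
        w x y • Mod.res d.toModule (inf_le_right : O x ⊓ O y ≤ O y) (g y)) (x y : X),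
      Mod.res (d.twist M) (inf_le_left : O x ⊓ O y ≤ O x) (d.tmul M (d.toSec (g x)) (s x)) =
        (w x y * ρ x y) • Mod.res (d.twist M) (inf_le_right : O x ⊓ O y ≤ O y)
          (d.tmul M (d.toSec (g y)) (s y)) := by
    intro κ₀ d g hg x y
    rw [res_tmul, res_tmul, hρ x y, ← smul_tmul, mul_comm, mul_smul]
    congr 1
    rw [← tmul_smul]
    congr 1
    exact hg x y
  refine Exists.elim (nonempty_iso_of_same_trans O hcov
    (fun x => c.tmul M (c.toSec (γ x)) (s x))
    (fun x => c.isGen_tmul M (κ x) (hOc x) (hγ x) (hs x))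
    (fun x => c'.tmul M (c'.toSec (γ' x)) (s x))
    (fun x => c'.isGen_tmul M (κ' x) (hOc' x) (hγ' x) (hs x))
    (fun x y => w x y * ρ x y) (key c γ hw) (key c' γ' hw')) (fun e _ => ⟨e⟩)

/-- (T1), with an isomorphism of the modules as well -/
theorem nonempty_twist_iso_twist_of_iso' {ι' : Type u} (c' : Cocycle X ι') {M' : X.Modules}
    (hM : LocGen M) (φ : c.toModule ≅ c'.toModule) (e : M ≅ M') :
    Nonempty (c.twist M ≅ c'.twist M') := by
  obtain ⟨e1⟩ := c.nonempty_twist_iso_twist_of_iso c' hM φ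
  exact ⟨e1 ≪≫ c'.twistIso e⟩

/-- **(T1b)**: the module of a cocycle is the twist of the unit module -/
theorem nonempty_toModule_iso_twist_unit : Nonempty (c.toModule ≅ c.twist (unitM X)) := by
  let O : ι → X.Opens := fun k => (⊤ : X.Opens) ⊓ c.U k
  have hcov : ⨆ k, O k = ⊤ := by
    rw [eq_top_iff, ← c.hU]
    intro x hx
    obtain ⟨k, hk⟩ := Opens.mem_iSup.mp hx
    exact Opens.mem_iSup.mpr ⟨k, ⟨trivial, hk⟩⟩
  let r : ∀ i j, Γ(X, O i ⊓ O j) := fun i j =>
    resO (le_inf (inf_le_left.trans inf_le_right) (inf_le_right.trans inf_le_right)) (c.u i j)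
  refine Exists.elim (nonempty_iso_of_same_trans O hcov
    (fun k => Mod.res c.toModule (inf_le_right : O k ≤ c.U k) (c.gen k))
    (fun k => (c.isGen_gen k).res inf_le_right)
    (fun k => c.tgen (unitM X) k (oneU ⊤))
    (fun k => c.isGen_tgen (unitM X) k (isGen_oneU ⊤)) r ?_ ?_) (fun e _ => ⟨e⟩)
  · intro i j
    have h1 := congrArg (Mod.res c.toModule (le_inf (inf_le_left.trans inf_le_right)
      (inf_le_right.trans inf_le_right) : O i ⊓ O j ≤ c.U i ⊓ c.U j)) (c.res_gen i j)
    rw [res_smul, res_res, res_res] at h1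
    rw [res_res, res_res]
    exact h1
  · intro i j
    have h1 := c.res_tgen (unitM X) i j (oneU ⊤) (oneU ⊤) 1 (by rw [one_smul])
    refine h1.trans ?_
    congr 1
    rw [resO_one, one_mul]

/-- **(T1c)**: twisting the module of a cocycle by the inverse cocycle gives the unit module -/
theorem nonempty_inv_twist_toModule_iso : Nonempty (c.inv.twist c.toModule ≅ unitM X) := by
  obtain ⟨e1⟩ := c.nonempty_toModule_iso_twist_unit
  have hu : LocGen (unitM X) := fun x => ⟨⊤, trivial, oneU ⊤, isGen_oneU ⊤⟩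
  obtain ⟨e2⟩ := c.nonempty_iso_inv_twist_twist hu
  exact ⟨c.inv.twistIso e1 ≪≫ e2⟩

end Cocycle

end Fermat.Agent.S25lib.Mod
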