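/-
S25lib / Mod / Cocycle  (helper7)  --  Project L (S25), brick (M1)(d): synthesis.
**The invertible module of a cocycle**: for an open cover `U i` of `X` and functions `u i j` on
`U i ⊓ U j` with `u i i = 1`, `u i j * u j k = u i k`, the module `ofCocycle` whose sections over `V` are
the families `a i ∈ Γ(X, V ⊓ U i)` with `a j = a i * u i j` on `V ⊓ U i ⊓ U j`.
This file: the presheaf of abelian groups with its module structures.
-/
import Fermat.Agent.S25lib.Mod.PullGen

set_option autoImplicit false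

noncomputable section

universe u

open AlgebraicGeometry CategoryTheory TopologicalSpace

namespace Fermat.Agent.S25lib.Mod

/-- a multiplicative 1-cocycle of functions on an open cover -/
structure Cocycle (X : Scheme.{u}) (ι : Type u) where
  U : ι → X.Opens
  hU : ⨆ i, U i = ⊤
  u : ∀ i j, Γ(X, U i ⊓ U j)
  u_self : ∀ i, u i i = 1
  u_mul : ∀ i j k,
    resO (le_inf (inf_le_left.trans inf_le_left) (inf_le_left.trans inf_le_right) :
        U i ⊓ U j ⊓ U k ≤ U i ⊓ U j) (u i j) *
      resO (le_inf (inf_le_left.trans inf_le_right) inf_le_right :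
        U i ⊓ U j ⊓ U k ≤ U j ⊓ U k) (u j k) =
      resO (le_inf (inf_le_left.trans inf_le_left) inf_le_right :
        U i ⊓ U j ⊓ U k ≤ U i ⊓ U k) (u i k)

namespace Cocycle

variable {X : Scheme.{u}} {ι : Type u} (c : Cocycle X ι)

/-- the relation defining the sections over `V` -/
def IsSec (V : X.Opens) (a : ∀ i, Γ(X, V ⊓ c.U i)) : Prop :=
  ∀ i j,
    resO (le_inf (inf_le_left.trans inf_le_left) inf_le_right :
        V ⊓ c.U i ⊓ c.U j ≤ V ⊓ c.U j) (a j) =
      resO (inf_le_left : V ⊓ c.U i ⊓ c.U j ≤ V ⊓ c.U i) (a i) *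
        resO (le_inf (inf_le_left.trans inf_le_right) inf_le_right :
          V ⊓ c.U i ⊓ c.U j ≤ c.U i ⊓ c.U j) (c.u i j)

/-- the group of sections over `V` -/
def sec (V : X.Opens) : AddSubgroup (∀ i, Γ(X, V ⊓ c.U i)) where
  carrier := {a | c.IsSec V a}
  zero_mem' := by
    intro i j
    simp only [Pi.zero_apply]
    rw [show resO _ (0 : Γ(X, V ⊓ c.U j)) = 0 from map_zero _,
      show resO _ (0 : Γ(X, V ⊓ c.U i)) = 0 from map_zero _, zero_mul]
  add_mem' := by
    intro a b ha hb i j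
    simp only [Pi.add_apply]
    rw [resO_add, resO_add, ha i j, hb i j, add_mul]
  neg_mem' := by
    intro a ha i j
    simp only [Pi.neg_apply]
    rw [show resO _ (-a j) = -resO _ (a j) from map_neg _ _,
      show resO _ (-a i) = -resO _ (a i) from map_neg _ _, ha i j, neg_mul]

/-- restriction of families -/
def resFam {V V' : X.Opens} (h : V' ≤ V) (a : ∀ i, Γ(X, V ⊓ c.U i)) : ∀ i, Γ(X, V' ⊓ c.U i) :=
  fun i => resO (inf_le_inf_right (c.U i) h) (a i)

theorem isSec_resFam {V V' : X.Opens} (h : V' ≤ V) {a : ∀ i, Γ(X, V ⊓ c.U i)}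
    (ha : c.IsSec V a) : c.IsSec V' (c.resFam h a) := by
  intro i j
  unfold resFam
  have := congrArg (resO (inf_le_inf_right (c.U j) (inf_le_inf_right (c.U i) h) :
    V' ⊓ c.U i ⊓ c.U j ≤ V ⊓ c.U i ⊓ c.U j)) (ha i j)
  rw [resO_mul, resO_resO, resO_resO, resO_resO] at this
  rw [resO_resO, resO_resO]
  exact this

/-- the action of functions on families -/
def smulFam {V : X.Opens} (r : Γ(X, V)) (a : ∀ i, Γ(X, V ⊓ c.U i)) : ∀ i, Γ(X, V ⊓ c.U i) :=
  fun i => resO (inf_le_left : V ⊓ c.U i ≤ V) r * a i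

theorem isSec_smulFam {V : X.Opens} (r : Γ(X, V)) {a : ∀ i, Γ(X, V ⊓ c.U i)}
    (ha : c.IsSec V a) : c.IsSec V (c.smulFam r a) := by
  intro i j
  unfold smulFam
  rw [resO_mul, resO_mul, resO_resO, resO_resO, ha i j, mul_assoc]

end Cocycle

end Fermat.Agent.S25lib.Mod
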