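/-
S25lib / Mod / CocyclePresheaf  (helper7)  --  Project L (S25), brick (M1)(d): the presheaf of modules of a
cocycle.
-/
import Fermat.Agent.S25lib.Mod.Cocycle

set_option autoImplicit false

noncomputable section

universe u

open AlgebraicGeometry CategoryTheory TopologicalSpace

namespace Fermat.Agent.S25lib.Mod

namespace Cocycle

variable {X : Scheme.{u}} {ι : Type u} (c : Cocycle X ι)

/-- the module structure on sections over `V` -/
instance secModule (V : X.Opens) : Module Γ(X, V) (c.sec V) where
  smul r a := ⟨c.smulFam r a.1, c.isSec_smulFam r a.2⟩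
  one_smul a := by
    apply Subtype.ext
    funext i
    change resO _ (1 : Γ(X, V)) * a.1 i = a.1 i
    rw [resO_one, one_mul]
  mul_smul r r' a := by
    apply Subtype.ext
    funext i
    change resO _ (r * r') * a.1 i = resO _ r * (resO _ r' * a.1 i)
    rw [resO_mul, mul_assoc]
  smul_zero r := by
    apply Subtype.ext
    funext i
    change resO _ r * (0 : Γ(X, V ⊓ c.U i)) = 0
    rw [mul_zero]
  smul_add r a b := by
    apply Subtype.ext
    funext i
    change resO _ r * (a.1 i + b.1 i) = resO _ r * a.1 i + resO _ r * b.1 i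
    rw [mul_add]
  add_smul r r' a := by
    apply Subtype.ext
    funext i
    change resO _ (r + r') * a.1 i = resO _ r * a.1 i + resO _ r' * a.1 i
    rw [resO_add, add_mul]
  zero_smul a := by
    apply Subtype.ext
    funext i
    change resO _ (0 : Γ(X, V)) * a.1 i = 0
    rw [show resO _ (0 : Γ(X, V)) = 0 from map_zero _, zero_mul]

theorem smul_val {V : X.Opens} (r : Γ(X, V)) (a : c.sec V) (i : ι) :
    (r • a).1 i = resO (inf_le_left : V ⊓ c.U i ≤ V) r * a.1 i := rfl

/-- restriction of sections -/
def resSec {V V' : X.Opens} (h : V' ≤ V) : c.sec V →+ c.sec V' where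
  toFun a := ⟨c.resFam h a.1, c.isSec_resFam h a.2⟩
  map_zero' := by
    apply Subtype.ext
    funext i
    change resO _ (0 : Γ(X, V ⊓ c.U i)) = 0
    exact map_zero _
  map_add' a b := by
    apply Subtype.ext
    funext i
    change resO _ (a.1 i + b.1 i) = resO _ (a.1 i) + resO _ (b.1 i)
    exact resO_add _ _ _

theorem resSec_val {V V' : X.Opens} (h : V' ≤ V) (a : c.sec V) (i : ι) :
    (c.resSec h a).1 i = resO (inf_le_inf_right (c.U i) h) (a.1 i) := rfl

theorem resSec_smul {V V' : X.Opens} (h : V' ≤ V) (r : Γ(X, V)) (a : c.sec V) :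
    c.resSec h (r • a) = resO h r • c.resSec h a := by
  apply Subtype.ext
  funext i
  rw [resSec_val, smul_val, smul_val, resSec_val, resO_mul, resO_resO, resO_resO]

theorem resSec_self {V : X.Opens} (a : c.sec V) : c.resSec (le_refl V) a = a := by
  apply Subtype.ext
  funext i
  rw [resSec_val]
  exact resO_self _

theorem resSec_resSec {V V' V'' : X.Opens} (h : V' ≤ V) (h' : V'' ≤ V') (a : c.sec V) :
    c.resSec h' (c.resSec h a) = c.resSec (h'.trans h) a := by
  apply Subtype.ext
  funext i
  rw [resSec_val, resSec_val, resSec_val, resO_resO]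

/-- the presheaf of abelian groups -/
def abPresheaf : TopCat.Presheaf Ab X where
  obj V := AddCommGrpCat.of (c.sec V.unop)
  map {V W} f := AddCommGrpCat.ofHom (c.resSec (leOfHom f.unop))
  map_id V := by
    ext a : 2
    exact c.resSec_self a
  map_comp {V W Z} f g := by
    ext a : 2
    exact (c.resSec_resSec (leOfHom f.unop) (leOfHom g.unop) a).symm

end Cocycle

end Fermat.Agent.S25lib.Mod
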