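/-
S25lib / Mod / CocycleSheaf  (helper7)  --  Project L (S25), brick (M1)(d): the sheaf of modules of a cocycle.
-/
import Fermat.Agent.S25lib.Mod.CocyclePresheaf
import Fermat.Agent.S25lib.Mod.GlueO

set_option autoImplicit false

noncomputable section

universe u

open AlgebraicGeometry CategoryTheory TopologicalSpace

namespace Fermat.Agent.S25lib.Mod

namespace Cocycle

variable {X : Scheme.{u}} {ι : Type u} (c : Cocycle X ι)

instance abPresheafModule (V : (Opens X)ᵒᵖ) :
    Module (X.ringCatSheaf.obj.obj V) (c.abPresheaf.obj V) :=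
  c.secModule V.unop

/-- the presheaf of modules -/
def presheafOfModules : PresheafOfModules.{u} X.ringCatSheaf.obj :=
  PresheafOfModules.ofPresheaf c.abPresheaf (fun _ _ f r m => c.resSec_smul (leOfHom f.unop) r m)

theorem abPresheaf_map_apply {V W : (Opens X)ᵒᵖ} (f : V ⟶ W) (a : c.sec V.unop) :
    c.abPresheaf.map f a = c.resSec (leOfHom f.unop) a := rfl

section Sheaf

variable {κ : Type u} (W : κ → Opens X) (sf : ∀ k, c.sec (W k))
  (hsf : ∀ k l, c.resSec (inf_le_left : W k ⊓ W l ≤ W k) (sf k) =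
    c.resSec (inf_le_right : W k ⊓ W l ≤ W l) (sf l))

include hsf in
theorem glue_compat (i : ι) (k l : κ) :
    resO (inf_le_left : (W k ⊓ c.U i) ⊓ (W l ⊓ c.U i) ≤ W k ⊓ c.U i) ((sf k).1 i) =
      resO (inf_le_right : (W k ⊓ c.U i) ⊓ (W l ⊓ c.U i) ≤ W l ⊓ c.U i) ((sf l).1 i) := by
  have h := congrArg (fun a : c.sec (W k ⊓ W l) => a.1 i) (hsf k l)
  simp only [resSec_val] at h
  have hle : (W k ⊓ c.U i) ⊓ (W l ⊓ c.U i) ≤ (W k ⊓ W l) ⊓ c.U i :=
    le_inf (le_inf (inf_le_left.trans inf_le_left) (inf_le_right.trans inf_le_left))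
      (inf_le_left.trans inf_le_right)
  have h2 := congrArg (resO hle) h
  rw [resO_resO, resO_resO] at h2
  exact h2

theorem cover_inf (i : ι) : (⨆ k, W k) ⊓ c.U i ≤ ⨆ k, W k ⊓ c.U i := by
  rw [iSup_inf_eq]

/-- the glued family -/
def glueFam (i : ι) : Γ(X, (⨆ k, W k) ⊓ c.U i) :=
  (exists_unique_glueO (fun k => W k ⊓ c.U i) ((⨆ k, W k) ⊓ c.U i)
    (fun k => inf_le_inf_right (c.U i) (le_iSup W k)) (c.cover_inf W i)
    (fun k => (sf k).1 i) (c.glue_compat W sf hsf i)).choose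

theorem glueFam_spec (i : ι) (k : κ) :
    resO (inf_le_inf_right (c.U i) (le_iSup W k)) (c.glueFam W sf hsf i) = (sf k).1 i :=
  (exists_unique_glueO (fun k => W k ⊓ c.U i) ((⨆ k, W k) ⊓ c.U i)
    (fun k => inf_le_inf_right (c.U i) (le_iSup W k)) (c.cover_inf W i)
    (fun k => (sf k).1 i) (c.glue_compat W sf hsf i)).choose_spec.1 k

theorem isSec_glueFam : c.IsSec (⨆ k, W k) (c.glueFam W sf hsf) := by
  intro i j
  apply eq_of_resO_eq (fun k => W k ⊓ c.U i ⊓ c.U j) ((⨆ k, W k) ⊓ c.U i ⊓ c.U j)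
    (fun k => inf_le_inf_right (c.U j) (inf_le_inf_right (c.U i) (le_iSup W k)))
    (by rw [iSup_inf_eq, iSup_inf_eq])
  intro k
  rw [resO_mul, resO_resO, resO_resO, resO_resO]
  have hk := (sf k).2 i j
  have e1 : resO (le_inf (inf_le_left.trans inf_le_left) inf_le_right :
      W k ⊓ c.U i ⊓ c.U j ≤ W k ⊓ c.U j) ((sf k).1 j) =
      resO ((inf_le_inf_right (c.U j) (inf_le_inf_right (c.U i) (le_iSup W k))).trans
        (le_inf (inf_le_left.trans inf_le_left) inf_le_right))
        (c.glueFam W sf hsf j) := by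
    rw [← c.glueFam_spec W sf hsf j k, resO_resO]
  have e2 : resO (inf_le_left : W k ⊓ c.U i ⊓ c.U j ≤ W k ⊓ c.U i) ((sf k).1 i) =
      resO ((inf_le_inf_right (c.U j) (inf_le_inf_right (c.U i) (le_iSup W k))).trans
        inf_le_left) (c.glueFam W sf hsf i) := by
    rw [← c.glueFam_spec W sf hsf i k, resO_resO]
  rw [e1, e2] at hk
  exact hk

end Sheaf

theorem isSheaf_abPresheaf : TopCat.Presheaf.IsSheaf c.abPresheaf := by
  rw [TopCat.Presheaf.isSheaf_iff_isSheafUniqueGluing]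
  intro κ W sf hsf
  have hsf' : ∀ k l, c.resSec (inf_le_left : W k ⊓ W l ≤ W k) (sf k) =
      c.resSec (inf_le_right : W k ⊓ W l ≤ W l) (sf l) := fun k l => hsf k l
  refine ⟨⟨c.glueFam W sf hsf', c.isSec_glueFam W sf hsf'⟩, ?_, ?_⟩
  · intro k
    apply Subtype.ext
    funext i
    exact c.glueFam_spec W sf hsf' i k
  · intro t ht
    apply Subtype.ext
    funext i
    apply eq_of_resO_eq (fun k => W k ⊓ c.U i) ((⨆ k, W k) ⊓ c.U i)
      (fun k => inf_le_inf_right (c.U i) (le_iSup W k)) (c.cover_inf W i)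
    intro k
    rw [c.glueFam_spec W sf hsf' i k]
    have := congrArg (fun a : c.sec (W k) => a.1 i) (ht k)
    exact this

/-- **the module of a cocycle** -/
def toModule : X.Modules where
  val := c.presheafOfModules
  isSheaf := c.isSheaf_abPresheaf

theorem toModule_presheaf : c.toModule.presheaf = c.abPresheaf := rfl

end Cocycle

end Fermat.Agent.S25lib.Mod
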