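/-
S25lib / Mod / CocycleGen  (helper7)  --  Project L (S25), brick (M1)(d): the generators of the module of a
cocycle; **`Cocycle.toModule` is invertible with generators `gen k` on `U k` and `gen i = u i j • gen j`.**
-/
import Fermat.Agent.S25lib.Mod.CocycleSheaf

set_option autoImplicit false

noncomputable section

universe u

open AlgebraicGeometry CategoryTheory TopologicalSpace

namespace Fermat.Agent.S25lib.Mod

namespace Cocycle

variable {X : Scheme.{u}} {ι : Type u} (c : Cocycle X ι)

/-- sections of `toModule` are compatible families -/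
def ofSec {V : X.Opens} (a : c.sec V) : Γ(c.toModule, V) := a

/-- sections of `toModule` are compatible families -/
def toSec {V : X.Opens} (a : Γ(c.toModule, V)) : c.sec V := a

theorem res_ofSec {V V' : X.Opens} (h : V' ≤ V) (a : c.sec V) :
    Mod.res c.toModule h (c.ofSec a) = c.ofSec (c.resSec h a) := rfl

theorem smul_ofSec {V : X.Opens} (r : Γ(X, V)) (a : c.sec V) :
    r • c.ofSec a = c.ofSec (r • a) := rfl

theorem ofSec_injective {V : X.Opens} : Function.Injective (c.ofSec (V := V)) := fun _ _ h => h

theorem ofSec_surjective {V : X.Opens} : Function.Surjective (c.ofSec (V := V)) := fun a => ⟨a, rfl⟩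

/-- the generator over `U k` as a family -/
def genSec (k : ι) : c.sec (c.U k) :=
  ⟨fun i => c.u k i, fun i j => (c.u_mul k i j).symm⟩

/-- the generator over `U k` -/
def gen (k : ι) : Γ(c.toModule, c.U k) := c.ofSec (c.genSec k)

theorem isGen_gen (k : ι) : IsGen c.toModule (c.U k) (c.gen k) := by
  intro V h
  have hV : V ≤ V ⊓ c.U k := le_inf le_rfl h
  unfold gen
  constructor
  · intro r r' hrr'
    simp only [res_ofSec, smul_ofSec] at hrr'
    have h1 := congrArg (fun a : c.sec V => a.1 k) (c.ofSec_injective hrr')
    simp only [smul_val, resSec_val] at h1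
    have hu : resO (inf_le_inf_right (c.U k) h) ((c.genSec k).1 k) = 1 := by
      change resO _ (c.u k k) = 1
      rw [c.u_self, resO_one]
    rw [hu, mul_one, mul_one] at h1
    have h2 := congrArg (resO hV) h1
    rwa [resO_resO, resO_resO, resO_self, resO_self] at h2
  · intro a
    obtain ⟨a, rfl⟩ := c.ofSec_surjective a
    refine ⟨resO hV (a.1 k), ?_⟩
    simp only [res_ofSec, smul_ofSec]
    congr 1
    apply Subtype.ext
    funext i
    rw [smul_val, resSec_val]
    change resO _ (resO hV (a.1 k)) * resO _ (c.u k i) = a.1 i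
    have hle : V ⊓ c.U i ≤ V ⊓ c.U k ⊓ c.U i := le_inf (le_inf inf_le_left (inf_le_left.trans h))
      inf_le_right
    have h3 := congrArg (resO hle) (a.2 k i)
    rw [resO_mul, resO_resO, resO_resO, resO_resO, resO_self] at h3
    rw [h3, resO_resO]

/-- the transition functions of `toModule` -/
theorem res_gen (i j : ι) :
    Mod.res c.toModule (inf_le_left : c.U i ⊓ c.U j ≤ c.U i) (c.gen i) =
      c.u i j • Mod.res c.toModule (inf_le_right : c.U i ⊓ c.U j ≤ c.U j) (c.gen j) := by
  unfold gen
  simp only [res_ofSec, smul_ofSec]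
  congr 1
  apply Subtype.ext
  funext l
  rw [smul_val, resSec_val, resSec_val]
  change resO _ (c.u i l) = resO _ (c.u i j) * resO _ (c.u j l)
  exact (c.u_mul i j l).symm

/-- **(M1)(d)**: the module of a cocycle is invertible -/
theorem isInvertible_toModule : Scheme.Modules.IsInvertible c.toModule := by
  rw [isInvertible_iff_exists_isGen]
  intro x
  have hx : x ∈ (⨆ i, c.U i : X.Opens) := by rw [c.hU]; trivial
  obtain ⟨i, hi⟩ := Opens.mem_iSup.mp hx
  exact ⟨c.U i, hi, c.gen i, c.isGen_gen i⟩

end Cocycle

end Fermat.Agent.S25lib.Mod
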